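import Fermat.Agent.S05.Frey

/-!
# S05: inertia at `q ≠ 2, p` acts trivially on the `p`-torsion of the Frey curve
-/

set_option autoImplicit false
set_option linter.unusedSectionVars false
set_option linter.unusedSimpArgs false

namespace Fermat.Agent.S05

open WeierstrassCurve WeierstrassCurve.Affine OrdVal

variable (P : FreyPackage) {A : ValuationSubring (AlgebraicClosure ℚ)} {q : ℕ}
  {O : OrdVal (AlgebraicClosure ℚ)} (D : PlaceData A q O)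
include D

/-- Case `q ∤ abc`. -/
theorem frey_fix_good (hq2 : q ≠ 2) (hqp : q ≠ P.p)
    (ha : ¬ (q : ℤ) ∣ P.a) (hb : ¬ (q : ℤ) ∣ P.b) (hc : ¬ (q : ℤ) ∣ P.c)
    {σ : AlgebraicClosure ℚ ≃ₐ[ℚ] AlgebraicClosure ℚ} (hσ : σ ∈ A.inertiaSubgroupIn ℚ)
    {Pt : ((P.freyCurve : WeierstrassCurve.Affine ℚ)⁄(AlgebraicClosure ℚ)).Point}
    (hpP : P.p • Pt = 0) :
    Point.map (W' := (P.freyCurve : WeierstrassCurve.Affine ℚ)) σ.toAlgHom Pt = Pt := by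
  have hA' : O.IsU (frAp P) := pow_isU D ha _
  have hB' : O.IsU (frBp P) := pow_isU D hb _
  have hC' : O.IsU (frCp P) := pow_isU D hc _
  have h4 := four_isU D hq2
  have h16 := sixteen_isU D hq2
  have hα₂ : O.Ge ((frBp P - frAp P) / 4) 0 := by
    rw [div_eq_mul_inv]
    exact (hB'.ge.sub hA'.ge).mul0 h4.inv.ge
  have hα₄U : O.IsU (-(frAp P * frBp P) / 16) := ((hA'.mul hB').neg).div h16
  have C := frey_ctx P D hq2 hqp (frey_leg0 P) (Ge.zero 0) hα₂ hα₄U.ge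
  have hdisc : O.IsU (((frBp P - frAp P) / 4) ^ 2 - 4 * (-(frAp P * frBp P) / 16)) := by
    have e : ((frBp P - frAp P) / 4) ^ 2 - 4 * (-(frAp P * frBp P) / 16) = frCp P ^ 2 / 16 := by
      rw [← frABC]; ring
    rw [e]
    exact (hC'.pow 2).div h16
  exact C.fix_of_good (D.inertialAct _ hσ) hα₄U hdisc hpP

/-- Case `q ∣ a`. -/
theorem frey_fix_a (hq2 : q ≠ 2) (hqp : q ≠ P.p) (ha : (q : ℤ) ∣ P.a)
    {σ : AlgebraicClosure ℚ ≃ₐ[ℚ] AlgebraicClosure ℚ} (hσ : σ ∈ A.inertiaSubgroupIn ℚ)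
    {Pt : ((P.freyCurve : WeierstrassCurve.Affine ℚ)⁄(AlgebraicClosure ℚ)).Point}
    (hpP : P.p • Pt = 0) :
    Point.map (W' := (P.freyCurve : WeierstrassCurve.Affine ℚ)) σ.toAlgHom Pt = Pt := by
  have hb : ¬ (q : ℤ) ∣ P.b := not_dvd_of_gcd P.hgcdab D.hq ha
  have hA' : O.Gt (frAp P) 0 := pow_gt D ha P.hp0
  have hB' : O.IsU (frBp P) := pow_isU D hb _
  have hA0 : frAp P ≠ 0 := int_pow_ne P.ha0 _
  have h4 := four_isU D hq2
  have h16 := sixteen_isU D hq2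
  have hα₂U : O.IsU ((frBp P - frAp P) / 4) := (hB'.sub_gt hA').div h4
  have hα₄0 : -(frAp P * frBp P) / 16 ≠ 0 :=
    div_ne_zero (neg_ne_zero.2 (mul_ne_zero hA0 hB'.1)) h16.1
  have ht0 : ((P.a : ℤ) : AlgebraicClosure ℚ) ≠ 0 := Int.cast_ne_zero.2 P.ha0
  have hαt : O.ord (-(frAp P * frBp P) / 16) = P.p * O.ord ((P.a : ℤ) : AlgebraicClosure ℚ) := by
    rw [O.ord_div (neg_ne_zero.2 (mul_ne_zero hA0 hB'.1)) h16.1, O.ord_neg,
      O.ord_mul hA0 hB'.1, hB'.2, h16.2, frAp, O.ord_pow ht0]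
    ring
  have htpos : 0 < O.ord ((P.a : ℤ) : AlgebraicClosure ℚ) := (D.int_gt ha).lt_ord ht0
  have hα₄pos : 0 < O.ord (-(frAp P * frBp P) / 16) := by
    rw [hαt]
    have : (0 : ℚ) < P.p := by exact_mod_cast P.hppos
    positivity
  have C := frey_ctx P D hq2 hqp (frey_leg0 P) (Ge.zero 0) hα₂U.ge (Or.inr hα₄pos.le)
  exact C.fix_of_mult (D.inertialAct _ hσ) (map_zero _) hα₂U hα₄0 hα₄pos _ ht0
    (map_intCast _ _) hαt hpP

/-- Case `q ∣ b`. -/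
theorem frey_fix_b (hq2 : q ≠ 2) (hqp : q ≠ P.p) (hb : (q : ℤ) ∣ P.b)
    {σ : AlgebraicClosure ℚ ≃ₐ[ℚ] AlgebraicClosure ℚ} (hσ : σ ∈ A.inertiaSubgroupIn ℚ)
    {Pt : ((P.freyCurve : WeierstrassCurve.Affine ℚ)⁄(AlgebraicClosure ℚ)).Point}
    (hpP : P.p • Pt = 0) :
    Point.map (W' := (P.freyCurve : WeierstrassCurve.Affine ℚ)) σ.toAlgHom Pt = Pt := by
  have hgcd : gcd P.b P.a = 1 := by rw [gcd_comm]; exact P.hgcdab
  have ha : ¬ (q : ℤ) ∣ P.a := not_dvd_of_gcd hgcd D.hq hb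
  have hB' : O.Gt (frBp P) 0 := pow_gt D hb P.hp0
  have hA' : O.IsU (frAp P) := pow_isU D ha _
  have hB0 : frBp P ≠ 0 := int_pow_ne P.hb0 _
  have h4 := four_isU D hq2
  have h16 := sixteen_isU D hq2
  have hα₂U : O.IsU ((frBp P - frAp P) / 4) := by
    have e : frBp P - frAp P = -(frAp P - frBp P) := by ring
    rw [e]
    exact ((hA'.sub_gt hB').neg).div h4
  have hα₄0 : -(frAp P * frBp P) / 16 ≠ 0 :=
    div_ne_zero (neg_ne_zero.2 (mul_ne_zero hA'.1 hB0)) h16.1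
  have ht0 : ((P.b : ℤ) : AlgebraicClosure ℚ) ≠ 0 := Int.cast_ne_zero.2 P.hb0
  have hαt : O.ord (-(frAp P * frBp P) / 16) = P.p * O.ord ((P.b : ℤ) : AlgebraicClosure ℚ) := by
    rw [O.ord_div (neg_ne_zero.2 (mul_ne_zero hA'.1 hB0)) h16.1, O.ord_neg,
      O.ord_mul hA'.1 hB0, hA'.2, h16.2, frBp, O.ord_pow ht0]
    ring
  have htpos : 0 < O.ord ((P.b : ℤ) : AlgebraicClosure ℚ) := (D.int_gt hb).lt_ord ht0
  have hα₄pos : 0 < O.ord (-(frAp P * frBp P) / 16) := by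
    rw [hαt]
    have : (0 : ℚ) < P.p := by exact_mod_cast P.hppos
    positivity
  have C := frey_ctx P D hq2 hqp (frey_leg0 P) (Ge.zero 0) hα₂U.ge (Or.inr hα₄pos.le)
  exact C.fix_of_mult (D.inertialAct _ hσ) (map_zero _) hα₂U hα₄0 hα₄pos _ ht0
    (map_intCast _ _) hαt hpP

/-- Case `q ∣ c`. -/
theorem frey_fix_c (hq2 : q ≠ 2) (hqp : q ≠ P.p) (hc : (q : ℤ) ∣ P.c)
    {σ : AlgebraicClosure ℚ ≃ₐ[ℚ] AlgebraicClosure ℚ} (hσ : σ ∈ A.inertiaSubgroupIn ℚ)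
    {Pt : ((P.freyCurve : WeierstrassCurve.Affine ℚ)⁄(AlgebraicClosure ℚ)).Point}
    (hpP : P.p • Pt = 0) :
    Point.map (W' := (P.freyCurve : WeierstrassCurve.Affine ℚ)) σ.toAlgHom Pt = Pt := by
  have hgcd : gcd P.c P.a = 1 := by rw [gcd_comm]; exact P.hgcdac
  have ha : ¬ (q : ℤ) ∣ P.a := not_dvd_of_gcd hgcd D.hq hc
  have hC' : O.Gt (frCp P) 0 := pow_gt D hc P.hp0
  have hA' : O.IsU (frAp P) := pow_isU D ha _
  have hC0 : frCp P ≠ 0 := int_pow_ne P.hc0 _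
  have h4 := four_isU D hq2
  have h16 := sixteen_isU D hq2
  have hr : O.Ge (frAp P / 4) 0 := (hA'.div h4).ge
  have hα₂U : O.IsU ((frAp P + frCp P) / 4) := (hA'.add_gt hC').div h4
  have hα₄0 : frAp P * frCp P / 16 ≠ 0 := div_ne_zero (mul_ne_zero hA'.1 hC0) h16.1
  have ht0 : ((P.c : ℤ) : AlgebraicClosure ℚ) ≠ 0 := Int.cast_ne_zero.2 P.hc0
  have hαt : O.ord (frAp P * frCp P / 16) = P.p * O.ord ((P.c : ℤ) : AlgebraicClosure ℚ) := by
    rw [O.ord_div (mul_ne_zero hA'.1 hC0) h16.1, O.ord_mul hA'.1 hC0, hA'.2, h16.2, frCp,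
      O.ord_pow ht0]
    ring
  have htpos : 0 < O.ord ((P.c : ℤ) : AlgebraicClosure ℚ) := (D.int_gt hc).lt_ord ht0
  have hα₄pos : 0 < O.ord (frAp P * frCp P / 16) := by
    rw [hαt]
    have : (0 : ℚ) < P.p := by exact_mod_cast P.hppos
    positivity
  have C := frey_ctx P D hq2 hqp (frey_leg1 P) hr hα₂U.ge (Or.inr hα₄pos.le)
  have hσr : (σ : AlgebraicClosure ℚ →+* AlgebraicClosure ℚ) (frAp P / 4) = frAp P / 4 := by
    simp only [frAp, map_div₀, map_pow, map_intCast, map_ofNat]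
  exact C.fix_of_mult (D.inertialAct _ hσ) hσr hα₂U hα₄0 hα₄pos _ ht0
    (map_intCast _ _) hαt hpP

end Fermat.Agent.S05
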