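import Mathlib

/-!
# x-coordinate addition formulas on Weierstrass curves (affine points over a field)
-/

set_option autoImplicit false

namespace Fermat.Agent.S05

open WeierstrassCurve WeierstrassCurve.Affine

variable {F : Type*} [Field F] {W : WeierstrassCurve.Affine F}

/-- The `x`-coordinate of an affine point (`0` for the point at infinity). -/
def xc : W.Point → F
  | .zero => 0
  | .some x _ _ => x

/-- The `y`-coordinate of an affine point (`0` for the point at infinity). -/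
def yc : W.Point → F
  | .zero => 0
  | .some _ y _ => y

/-- `ψ₂ = 2y + a₁x + a₃` of an affine point (`0` for the point at infinity). -/
def psi : W.Point → F
  | .zero => 0
  | .some x y _ => 2 * y + W.a₁ * x + W.a₃

/-- numerator of `x(P+Q) + x(P-Q)` -/
def sNum (W : WeierstrassCurve.Affine F) (x₁ x₂ : F) : F :=
  2 * x₁ * x₂ * (x₁ + x₂) + W.b₂ * x₁ * x₂ + W.b₄ * (x₁ + x₂) + W.b₆

/-- numerator of `x(P+Q) * x(P-Q)` -/
def pNum (W : WeierstrassCurve.Affine F) (x₁ x₂ : F) : F :=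
  x₁ ^ 2 * x₂ ^ 2 - W.b₄ * x₁ * x₂ - W.b₆ * (x₁ + x₂) - W.b₈

/-- numerator of `x(2P)` -/
def dNum (W : WeierstrassCurve.Affine F) (x : F) : F :=
  x ^ 4 - W.b₄ * x ^ 2 - 2 * W.b₆ * x - W.b₈

/-- `ψ₂²` as a polynomial in `x` -/
def psiSq (W : WeierstrassCurve.Affine F) (x : F) : F :=
  4 * x ^ 3 + W.b₂ * x ^ 2 + 2 * W.b₄ * x + W.b₆

@[simp] lemma xc_zero : xc (0 : W.Point) = 0 := rfl
@[simp] lemma xc_some {x y : F} (h : W.Nonsingular x y) : xc (Point.some x y h) = x := rfl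
@[simp] lemma yc_some {x y : F} (h : W.Nonsingular x y) : yc (Point.some x y h) = y := rfl
@[simp] lemma psi_zero : psi (0 : W.Point) = 0 := rfl
@[simp] lemma psi_some {x y : F} (h : W.Nonsingular x y) :
    psi (Point.some x y h) = 2 * y + W.a₁ * x + W.a₃ := rfl

lemma xc_neg (P : W.Point) : xc (-P) = xc P := by
  cases P with
  | zero => rfl
  | some x y h => rfl

lemma psi_neg (P : W.Point) : psi (-P) = -psi P := by
  cases P with
  | zero => simp [← Point.zero_def]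
  | some x y h =>
    rw [Point.neg_some, psi_some, psi_some, negY]
    ring

lemma psi_sq (P : W.Point) (hP : P ≠ 0) : psi P ^ 2 = psiSq W (xc P) := by
  cases P with
  | zero => exact absurd rfl hP
  | some x y h =>
    have he := (equation_iff x y).1 h.1
    simp only [psi_some, xc_some, psiSq, WeierstrassCurve.b₂, WeierstrassCurve.b₄,
      WeierstrassCurve.b₆]
    linear_combination 4 * he

lemma psi_eq_zero_iff (P : W.Point) (hP : P ≠ 0) : psi P = 0 ↔ P = -P := by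
  cases P with
  | zero => exact absurd rfl hP
  | some x y h =>
    rw [Point.neg_some, psi_some, Point.some.injEq, negY]
    constructor
    · intro h0
      refine ⟨rfl, ?_⟩
      linear_combination h0
    · rintro ⟨-, h0⟩
      linear_combination h0

lemma xc_eq_iff (P Q : W.Point) (hP : P ≠ 0) (hQ : Q ≠ 0) : xc P = xc Q ↔ P = Q ∨ P = -Q := by
  cases P with
  | zero => exact absurd rfl hP
  | some x₁ y₁ h₁ =>
    cases Q with
    | zero => exact absurd rfl hQ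
    | some x₂ y₂ h₂ => exact Point.X_eq_iff

variable [DecidableEq F]

/-- `x(P+Q)` formula -/
lemma xc_add_formula {x₁ y₁ x₂ y₂ : F} (h₁ : W.Nonsingular x₁ y₁) (h₂ : W.Nonsingular x₂ y₂)
    (hx : x₁ ≠ x₂) :
    Point.some x₁ y₁ h₁ + Point.some x₂ y₂ h₂ ≠ 0 ∧
    2 * xc (Point.some x₁ y₁ h₁ + Point.some x₂ y₂ h₂) * (x₁ - x₂) ^ 2 =
      sNum W x₁ x₂ - (2 * y₁ + W.a₁ * x₁ + W.a₃) * (2 * y₂ + W.a₁ * x₂ + W.a₃) := by
  rw [Point.add_of_X_ne hx]
  refine ⟨Point.some_ne_zero _, ?_⟩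
  have he₁ := (equation_iff x₁ y₁).1 h₁.1
  have he₂ := (equation_iff x₂ y₂).1 h₂.1
  have hne : x₁ - x₂ ≠ 0 := sub_ne_zero.2 hx
  simp only [xc_some, addX, slope_of_X_ne hx, sNum, WeierstrassCurve.b₂, WeierstrassCurve.b₄,
    WeierstrassCurve.b₆]
  field_simp
  linear_combination 2 * he₁ + 2 * he₂


/-- `x(P-Q)` formula -/
lemma xc_sub_formula {x₁ y₁ x₂ y₂ : F} (h₁ : W.Nonsingular x₁ y₁) (h₂ : W.Nonsingular x₂ y₂)
    (hx : x₁ ≠ x₂) :
    Point.some x₁ y₁ h₁ - Point.some x₂ y₂ h₂ ≠ 0 ∧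
    2 * xc (Point.some x₁ y₁ h₁ - Point.some x₂ y₂ h₂) * (x₁ - x₂) ^ 2 =
      sNum W x₁ x₂ + (2 * y₁ + W.a₁ * x₁ + W.a₃) * (2 * y₂ + W.a₁ * x₂ + W.a₃) := by
  rw [sub_eq_add_neg, Point.neg_some]
  have h := xc_add_formula h₁ ((nonsingular_neg x₂ y₂).2 h₂) hx
  refine ⟨h.1, ?_⟩
  rw [h.2, negY]
  ring

/-- General form of the addition/subtraction formulas on `x`-coordinates. -/
lemma xc_add_sub (P Q : W.Point) (hP : P ≠ 0) (hQ : Q ≠ 0) (hne : xc P ≠ xc Q) :
    P + Q ≠ 0 ∧ P - Q ≠ 0 ∧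
    2 * xc (P + Q) * (xc P - xc Q) ^ 2 = sNum W (xc P) (xc Q) - psi P * psi Q ∧
    2 * xc (P - Q) * (xc P - xc Q) ^ 2 = sNum W (xc P) (xc Q) + psi P * psi Q := by
  cases P with
  | zero => exact absurd rfl hP
  | some x₁ y₁ h₁ =>
    cases Q with
    | zero => exact absurd rfl hQ
    | some x₂ y₂ h₂ =>
      simp only [xc_some] at hne
      have ha := xc_add_formula h₁ h₂ hne
      have hs := xc_sub_formula h₁ h₂ hne
      exact ⟨ha.1, hs.1, ha.2, hs.2⟩

omit [DecidableEq F] in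
/-- The polynomial identity behind the product formula. -/
lemma sNum_sq_sub (W : WeierstrassCurve.Affine F) (x₁ x₂ : F) :
    sNum W x₁ x₂ ^ 2 - psiSq W x₁ * psiSq W x₂ = 4 * pNum W x₁ x₂ * (x₁ - x₂) ^ 2 := by
  simp only [sNum, psiSq, pNum, WeierstrassCurve.b₂, WeierstrassCurve.b₄,
    WeierstrassCurve.b₆, WeierstrassCurve.b₈]
  ring

/-- Sum formula: `(x(P+Q) + x(P-Q)) (x_P - x_Q)² = sNum`. -/
lemma xc_sum (h2 : (2 : F) ≠ 0) (P Q : W.Point) (hP : P ≠ 0) (hQ : Q ≠ 0)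
    (hne : xc P ≠ xc Q) :
    (xc (P + Q) + xc (P - Q)) * (xc P - xc Q) ^ 2 = sNum W (xc P) (xc Q) := by
  obtain ⟨-, -, ha, hs⟩ := xc_add_sub P Q hP hQ hne
  apply mul_left_cancel₀ h2
  linear_combination ha + hs

/-- Product formula: `x(P+Q) x(P-Q) (x_P - x_Q)² = pNum`. -/
lemma xc_prod (h2 : (2 : F) ≠ 0) (P Q : W.Point) (hP : P ≠ 0) (hQ : Q ≠ 0)
    (hne : xc P ≠ xc Q) :
    xc (P + Q) * xc (P - Q) * (xc P - xc Q) ^ 2 = pNum W (xc P) (xc Q) := by
  obtain ⟨-, -, ha, hs⟩ := xc_add_sub P Q hP hQ hne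
  have hd : (xc P - xc Q) ^ 2 ≠ 0 := pow_ne_zero 2 (sub_ne_zero.2 hne)
  have h4 : (4 : F) ≠ 0 := by
    have : (4 : F) = 2 * 2 := by norm_num
    rw [this]; exact mul_ne_zero h2 h2
  have hpoly := sNum_sq_sub W (xc P) (xc Q)
  rw [← psi_sq P hP, ← psi_sq Q hQ] at hpoly
  apply mul_left_cancel₀ (mul_ne_zero h4 hd)
  have hAB : (2 * xc (P + Q) * (xc P - xc Q) ^ 2) * (2 * xc (P - Q) * (xc P - xc Q) ^ 2) =
      (sNum W (xc P) (xc Q) - psi P * psi Q) * (sNum W (xc P) (xc Q) + psi P * psi Q) := by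
    rw [ha, hs]
  linear_combination hAB + hpoly

/-- Duplication formula: `x(2P) ψ(P)² = dNum`. -/
lemma xc_double (P : W.Point) (hP : P ≠ 0) (hψ : psi P ≠ 0) :
    P + P ≠ 0 ∧ xc (P + P) * psi P ^ 2 = dNum W (xc P) := by
  cases P with
  | zero => exact absurd rfl hP
  | some x y h =>
    have hy : y ≠ W.negY x y := by
      intro hy
      apply hψ
      rw [psi_some]
      rw [negY] at hy
      linear_combination hy
    rw [Point.add_self_of_Y_ne hy]
    refine ⟨Point.some_ne_zero _, ?_⟩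
    have he := (equation_iff x y).1 h.1
    have hne : y - W.negY x y ≠ 0 := sub_ne_zero.2 hy
    simp only [xc_some, psi_some, addX, slope_of_Y_ne rfl hy, dNum,
      WeierstrassCurve.b₄, WeierstrassCurve.b₆, WeierstrassCurve.b₈]
    have hψ' : 2 * y + W.a₁ * x + W.a₃ = y - W.negY x y := by rw [negY]; ring
    rw [hψ']
    field_simp
    rw [negY]
    linear_combination (-(W.a₁ ^ 2 + 4 * W.a₂ + 8 * x)) * he

end Fermat.Agent.S05
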