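import Mathlib

/-!
# A `ℚ`-valued additive valuation structure

Abstract framework used for S05: a function `ord : K → ℚ` (junk value at `0`) satisfying the
usual valuation axioms on nonzero elements.  Having values in `ℚ` allows `linarith`.
-/

set_option autoImplicit false

namespace Fermat.Agent.S05

/-- A `ℚ`-valued additive valuation on a field `K` (the value at `0` is junk). -/
structure OrdVal (K : Type*) [Field K] where
  /-- the order function -/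
  ord : K → ℚ
  map_mul' : ∀ x y : K, x ≠ 0 → y ≠ 0 → ord (x * y) = ord x + ord y
  map_add' : ∀ x y : K, x ≠ 0 → y ≠ 0 → x + y ≠ 0 → min (ord x) (ord y) ≤ ord (x + y)

namespace OrdVal

variable {K : Type*} [Field K] (O : OrdVal K)

lemma ord_mul {x y : K} (hx : x ≠ 0) (hy : y ≠ 0) : O.ord (x * y) = O.ord x + O.ord y :=
  O.map_mul' x y hx hy

lemma ord_one : O.ord 1 = 0 := by
  have h := O.ord_mul (one_ne_zero : (1 : K) ≠ 0) one_ne_zero
  rw [mul_one] at h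
  linarith

lemma ord_neg_one : O.ord (-1) = 0 := by
  have h := O.ord_mul (neg_ne_zero.2 one_ne_zero : (-1 : K) ≠ 0) (neg_ne_zero.2 one_ne_zero)
  rw [neg_one_mul, neg_neg, O.ord_one] at h
  linarith

lemma ord_neg (x : K) : O.ord (-x) = O.ord x := by
  by_cases hx : x = 0
  · simp [hx]
  · rw [← neg_one_mul, O.ord_mul (neg_ne_zero.2 one_ne_zero) hx, O.ord_neg_one, zero_add]

lemma ord_inv {x : K} (hx : x ≠ 0) : O.ord x⁻¹ = -O.ord x := by
  have h := O.ord_mul hx (inv_ne_zero hx)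
  rw [mul_inv_cancel₀ hx, O.ord_one] at h
  linarith

lemma ord_div {x y : K} (hx : x ≠ 0) (hy : y ≠ 0) : O.ord (x / y) = O.ord x - O.ord y := by
  rw [div_eq_mul_inv, O.ord_mul hx (inv_ne_zero hy), O.ord_inv hy]; ring

lemma ord_pow {x : K} (hx : x ≠ 0) (n : ℕ) : O.ord (x ^ n) = n * O.ord x := by
  induction n with
  | zero => simp [O.ord_one]
  | succ n ih =>
    rw [pow_succ, O.ord_mul (pow_ne_zero n hx) hx, ih]; push_cast; ring

lemma ord_zpow {x : K} (hx : x ≠ 0) (n : ℤ) : O.ord (x ^ n) = n * O.ord x := by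
  cases n with
  | ofNat n => simp [O.ord_pow hx]
  | negSucc n =>
    rw [zpow_negSucc, O.ord_inv (pow_ne_zero _ hx), O.ord_pow hx]
    push_cast; ring

lemma ord_add {x y : K} (hx : x ≠ 0) (hy : y ≠ 0) (hxy : x + y ≠ 0) :
    min (O.ord x) (O.ord y) ≤ O.ord (x + y) :=
  O.map_add' x y hx hy hxy

lemma ord_sub {x y : K} (hx : x ≠ 0) (hy : y ≠ 0) (hxy : x - y ≠ 0) :
    min (O.ord x) (O.ord y) ≤ O.ord (x - y) := by
  have := O.ord_add hx (neg_ne_zero.2 hy) (by rwa [← sub_eq_add_neg])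
  rwa [O.ord_neg, ← sub_eq_add_neg] at this

/-- If `ord x < ord y` then `x + y ≠ 0`. -/
lemma add_ne_zero_of_lt {x y : K} (h : O.ord x < O.ord y) : x + y ≠ 0 := by
  intro h0
  have : y = -x := by linear_combination h0
  rw [this, O.ord_neg] at h
  exact lt_irrefl _ h

/-- The ultrametric equality: if `ord x < ord y` then `ord (x + y) = ord x`. -/
lemma ord_add_eq_of_lt {x y : K} (hx : x ≠ 0) (hy : y ≠ 0) (h : O.ord x < O.ord y) :
    O.ord (x + y) = O.ord x := by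
  have hxy : x + y ≠ 0 := O.add_ne_zero_of_lt h
  apply le_antisymm
  · -- x = (x + y) + (-y)
    have h1 := O.ord_add hxy (neg_ne_zero.2 hy) (by simpa using hx)
    rw [O.ord_neg] at h1
    have h2 : x + y + -y = x := by ring
    rw [h2] at h1
    rcases min_le_iff.1 h1 with h3 | h3
    · exact h3
    · exact absurd h3 (not_le.2 h)
  · have := O.ord_add hx hy hxy
    rwa [min_eq_left h.le] at this

lemma ord_add_eq_of_gt {x y : K} (hx : x ≠ 0) (hy : y ≠ 0) (h : O.ord y < O.ord x) :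
    O.ord (x + y) = O.ord y := by
  rw [add_comm]; exact O.ord_add_eq_of_lt hy hx h

lemma ord_sub_eq_of_lt {x y : K} (hx : x ≠ 0) (hy : y ≠ 0) (h : O.ord x < O.ord y) :
    O.ord (x - y) = O.ord x := by
  rw [sub_eq_add_neg]
  exact O.ord_add_eq_of_lt hx (neg_ne_zero.2 hy) (by rwa [O.ord_neg])

lemma ord_sub_eq_of_gt {x y : K} (hx : x ≠ 0) (hy : y ≠ 0) (h : O.ord y < O.ord x) :
    O.ord (x - y) = O.ord y := by
  rw [sub_eq_add_neg, O.ord_add_eq_of_gt hx (neg_ne_zero.2 hy) (by rwa [O.ord_neg]), O.ord_neg]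

/-- If `x + y = 0` with `x, y ≠ 0` then the orders agree. -/
lemma ord_eq_of_add_eq_zero {x y : K} (h : x + y = 0) : O.ord x = O.ord y := by
  have : x = -y := by linear_combination h
  rw [this, O.ord_neg]

/-- `O.Ge x r`: `x = 0` or `r ≤ ord x` (i.e. "`ord x ≥ r`" with `ord 0 = ∞`). -/
def Ge (x : K) (r : ℚ) : Prop := x = 0 ∨ r ≤ O.ord x

/-- `O.Gt x r`: `x = 0` or `r < ord x` (i.e. "`ord x > r`" with `ord 0 = ∞`). -/
def Gt (x : K) (r : ℚ) : Prop := x = 0 ∨ r < O.ord x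

/-- `O.IsU x`: `x` is a unit of the valuation ring, i.e. `x ≠ 0` and `ord x = 0`. -/
def IsU (x : K) : Prop := x ≠ 0 ∧ O.ord x = 0

variable {O}

lemma Ge.zero (r : ℚ) : O.Ge 0 r := Or.inl rfl

lemma Gt.zero (r : ℚ) : O.Gt 0 r := Or.inl rfl

lemma Gt.ge {x : K} {r : ℚ} (h : O.Gt x r) : O.Ge x r := h.imp id le_of_lt

lemma Ge.mono {x : K} {r s : ℚ} (h : O.Ge x r) (hs : s ≤ r) : O.Ge x s :=
  h.imp id (le_trans hs)

lemma Gt.mono {x : K} {r s : ℚ} (h : O.Gt x r) (hs : s ≤ r) : O.Gt x s :=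
  h.imp id (lt_of_le_of_lt hs)

lemma Ge.gt_of_lt {x : K} {r s : ℚ} (h : O.Ge x r) (hs : s < r) : O.Gt x s :=
  h.imp id (lt_of_lt_of_le hs)

lemma ge_of_ne_zero {x : K} {r : ℚ} (h : r ≤ O.ord x) : O.Ge x r := Or.inr h

lemma gt_of_ne_zero {x : K} {r : ℚ} (h : r < O.ord x) : O.Gt x r := Or.inr h

lemma Ge.le_ord {x : K} {r : ℚ} (h : O.Ge x r) (hx : x ≠ 0) : r ≤ O.ord x :=
  h.resolve_left hx

lemma Gt.lt_ord {x : K} {r : ℚ} (h : O.Gt x r) (hx : x ≠ 0) : r < O.ord x :=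
  h.resolve_left hx

lemma Ge.neg {x : K} {r : ℚ} (h : O.Ge x r) : O.Ge (-x) r := by
  rcases h with h | h
  · left; simp [h]
  · right; rwa [O.ord_neg]

lemma Gt.neg {x : K} {r : ℚ} (h : O.Gt x r) : O.Gt (-x) r := by
  rcases h with h | h
  · left; simp [h]
  · right; rwa [O.ord_neg]

lemma Ge.add {x y : K} {r : ℚ} (hx : O.Ge x r) (hy : O.Ge y r) : O.Ge (x + y) r := by
  by_cases hx0 : x = 0
  · simpa [hx0] using hy
  by_cases hy0 : y = 0
  · simpa [hy0] using hx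
  by_cases hxy : x + y = 0
  · exact Or.inl hxy
  · right
    exact le_trans (le_min (hx.le_ord hx0) (hy.le_ord hy0)) (O.ord_add hx0 hy0 hxy)

lemma Gt.add {x y : K} {r : ℚ} (hx : O.Gt x r) (hy : O.Gt y r) : O.Gt (x + y) r := by
  by_cases hx0 : x = 0
  · simpa [hx0] using hy
  by_cases hy0 : y = 0
  · simpa [hy0] using hx
  by_cases hxy : x + y = 0
  · exact Or.inl hxy
  · right
    exact lt_of_lt_of_le (lt_min (hx.lt_ord hx0) (hy.lt_ord hy0)) (O.ord_add hx0 hy0 hxy)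

lemma Ge.sub {x y : K} {r : ℚ} (hx : O.Ge x r) (hy : O.Ge y r) : O.Ge (x - y) r := by
  rw [sub_eq_add_neg]; exact hx.add hy.neg

lemma Gt.sub {x y : K} {r : ℚ} (hx : O.Gt x r) (hy : O.Gt y r) : O.Gt (x - y) r := by
  rw [sub_eq_add_neg]; exact hx.add hy.neg

lemma Ge.mul {x y : K} {r s : ℚ} (hx : O.Ge x r) (hy : O.Ge y s) : O.Ge (x * y) (r + s) := by
  by_cases hx0 : x = 0
  · left; simp [hx0]
  by_cases hy0 : y = 0
  · left; simp [hy0]
  right
  rw [O.ord_mul hx0 hy0]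
  exact add_le_add (hx.le_ord hx0) (hy.le_ord hy0)

lemma Gt.mul_ge {x y : K} {r s : ℚ} (hx : O.Gt x r) (hy : O.Ge y s) : O.Gt (x * y) (r + s) := by
  by_cases hx0 : x = 0
  · left; simp [hx0]
  by_cases hy0 : y = 0
  · left; simp [hy0]
  right
  rw [O.ord_mul hx0 hy0]
  exact add_lt_add_of_lt_of_le (hx.lt_ord hx0) (hy.le_ord hy0)

lemma Ge.mul_gt {x y : K} {r s : ℚ} (hx : O.Ge x r) (hy : O.Gt y s) : O.Gt (x * y) (r + s) := by
  rw [mul_comm, add_comm]; exact hy.mul_ge hx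

lemma Ge.pow {x : K} {r : ℚ} (hx : O.Ge x r) (n : ℕ) : O.Ge (x ^ n) (n * r) := by
  induction n with
  | zero => right; simp [O.ord_one]
  | succ n ih =>
    rw [pow_succ]
    have := ih.mul hx
    refine this.mono ?_
    push_cast; linarith

lemma IsU.ne_zero {x : K} (h : O.IsU x) : x ≠ 0 := h.1

lemma IsU.ord_eq {x : K} (h : O.IsU x) : O.ord x = 0 := h.2

lemma IsU.ge {x : K} (h : O.IsU x) : O.Ge x 0 := Or.inr h.2.ge

lemma IsU.mul {x y : K} (hx : O.IsU x) (hy : O.IsU y) : O.IsU (x * y) :=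
  ⟨mul_ne_zero hx.1 hy.1, by rw [O.ord_mul hx.1 hy.1, hx.2, hy.2, add_zero]⟩

lemma IsU.inv {x : K} (hx : O.IsU x) : O.IsU x⁻¹ :=
  ⟨inv_ne_zero hx.1, by rw [O.ord_inv hx.1, hx.2, neg_zero]⟩

lemma IsU.div {x y : K} (hx : O.IsU x) (hy : O.IsU y) : O.IsU (x / y) := by
  rw [div_eq_mul_inv]; exact hx.mul hy.inv

lemma IsU.neg {x : K} (hx : O.IsU x) : O.IsU (-x) :=
  ⟨neg_ne_zero.2 hx.1, by rw [O.ord_neg, hx.2]⟩

lemma IsU.pow {x : K} (hx : O.IsU x) (n : ℕ) : O.IsU (x ^ n) :=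
  ⟨pow_ne_zero n hx.1, by rw [O.ord_pow hx.1, hx.2, mul_zero]⟩

lemma isU_one : O.IsU (1 : K) := ⟨one_ne_zero, O.ord_one⟩

/-- unit plus something of positive order is a unit -/
lemma IsU.add_gt {x y : K} (hx : O.IsU x) (hy : O.Gt y 0) : O.IsU (x + y) := by
  by_cases hy0 : y = 0
  · simpa [hy0] using hx
  have hlt : O.ord x < O.ord y := by rw [hx.2]; exact hy.lt_ord hy0
  exact ⟨O.add_ne_zero_of_lt hlt, by rw [O.ord_add_eq_of_lt hx.1 hy0 hlt, hx.2]⟩

lemma IsU.sub_gt {x y : K} (hx : O.IsU x) (hy : O.Gt y 0) : O.IsU (x - y) := by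
  rw [sub_eq_add_neg]; exact hx.add_gt hy.neg

/-- General ultrametric equality with `Gt`: if `x ≠ 0` and `ord y > ord x` (or `y = 0`),
then `x + y ≠ 0` and `ord (x + y) = ord x`. -/
lemma ord_add_eq_of_Gt {x y : K} (hx : x ≠ 0) (hy : O.Gt y (O.ord x)) :
    x + y ≠ 0 ∧ O.ord (x + y) = O.ord x := by
  by_cases hy0 : y = 0
  · simp [hy0, hx]
  have hlt := hy.lt_ord hy0
  exact ⟨O.add_ne_zero_of_lt hlt, O.ord_add_eq_of_lt hx hy0 hlt⟩

lemma ord_sub_eq_of_Gt {x y : K} (hx : x ≠ 0) (hy : O.Gt y (O.ord x)) :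
    x - y ≠ 0 ∧ O.ord (x - y) = O.ord x := by
  rw [sub_eq_add_neg]; exact ord_add_eq_of_Gt hx hy.neg


lemma ord_sq {x : K} (hx : x ≠ 0) : O.ord (x ^ 2) = 2 * O.ord x := by
  rw [O.ord_pow hx]; norm_num

lemma Ge.of_sq {x : K} {r : ℚ} (h : O.Ge (x ^ 2) (2 * r)) : O.Ge x r := by
  by_cases hx : x = 0
  · exact Or.inl hx
  right
  have := h.le_ord (pow_ne_zero 2 hx)
  rw [ord_sq hx] at this
  linarith

lemma Gt.of_sq {x : K} {r : ℚ} (h : O.Gt (x ^ 2) (2 * r)) : O.Gt x r := by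
  by_cases hx : x = 0
  · exact Or.inl hx
  right
  have := h.lt_ord (pow_ne_zero 2 hx)
  rw [ord_sq hx] at this
  linarith

lemma Ge.of_sq_zero {x : K} (h : O.Ge (x ^ 2) 0) : O.Ge x 0 :=
  Ge.of_sq (by simpa using h)

lemma Gt.of_sq_zero {x : K} (h : O.Gt (x ^ 2) 0) : O.Gt x 0 :=
  Gt.of_sq (by simpa using h)

/-- if a product of integral elements has positive order, so does one of the factors -/
lemma Gt.of_mul {x y : K} (hx : O.Ge x 0) (hy : O.Ge y 0) (h : O.Gt (x * y) 0) :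
    O.Gt x 0 ∨ O.Gt y 0 := by
  by_cases hx0 : x = 0
  · exact Or.inl (Or.inl hx0)
  by_cases hy0 : y = 0
  · exact Or.inr (Or.inl hy0)
  have := h.lt_ord (mul_ne_zero hx0 hy0)
  rw [O.ord_mul hx0 hy0] at this
  have h1 := hx.le_ord hx0
  have h2 := hy.le_ord hy0
  by_cases h3 : 0 < O.ord x
  · exact Or.inl (Or.inr h3)
  · right; right; linarith

lemma IsU.not_gt {x : K} (hx : O.IsU x) : ¬ O.Gt x 0 := by
  rintro (h | h)
  · exact hx.1 h
  · rw [hx.2] at h; exact lt_irrefl _ h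

lemma Gt.mul_isU {x y : K} {r : ℚ} (hx : O.Gt x r) (hy : O.IsU y) : O.Gt (x * y) r := by
  have := hx.mul_ge hy.ge
  simpa using this

lemma Ge.mul_isU {x y : K} {r : ℚ} (hx : O.Ge x r) (hy : O.IsU y) : O.Ge (x * y) r := by
  have := hx.mul hy.ge
  simpa using this

lemma isU_of_ge_of_not_gt {x : K} (h : O.Ge x 0) (h' : ¬ O.Gt x 0) : O.IsU x := by
  have hx : x ≠ 0 := fun h0 => h' (Or.inl h0)
  refine ⟨hx, le_antisymm ?_ (h.le_ord hx)⟩
  by_contra h3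
  exact h' (Or.inr (not_le.1 h3))

lemma ord_mul_isU {x y : K} (hx : x ≠ 0) (hy : O.IsU y) : O.ord (x * y) = O.ord x := by
  rw [O.ord_mul hx hy.1, hy.2, add_zero]

lemma ord_isU_mul {x y : K} (hx : O.IsU x) (hy : y ≠ 0) : O.ord (x * y) = O.ord y := by
  rw [O.ord_mul hx.1 hy, hx.2, zero_add]

/-- natural numbers are integral as soon as `1 + 1 + ⋯` is: helper to build `Ge` for numerals -/
lemma Ge.natCast_mul {x : K} {r : ℚ} (hnat : ∀ n : ℕ, O.Ge (n : K) 0) (n : ℕ) (hx : O.Ge x r) :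
    O.Ge ((n : K) * x) r := by
  have := (hnat n).mul hx
  simpa using this


lemma Ge.mul0 {x y : K} (hx : O.Ge x 0) (hy : O.Ge y 0) : O.Ge (x * y) 0 := by
  simpa using hx.mul hy

lemma Ge.mul_gt0 {x y : K} (hx : O.Ge x 0) (hy : O.Gt y 0) : O.Gt (x * y) 0 := by
  simpa using hx.mul_gt hy

lemma Gt.mul_ge0 {x y : K} (hx : O.Gt x 0) (hy : O.Ge y 0) : O.Gt (x * y) 0 := by
  simpa using hx.mul_ge hy

lemma Ge.pow0 {x : K} (hx : O.Ge x 0) (n : ℕ) : O.Ge (x ^ n) 0 := by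
  simpa using hx.pow n

end OrdVal

end Fermat.Agent.S05
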