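import Mathlib
import Fermat.Prelude.Def_FLTPrelim_Ramification

/-!
# Basic properties of elements of the inertia subgroup
-/

set_option autoImplicit false

namespace Fermat.Agent.S05

open ValuationSubring

variable {K L : Type*} [Field K] [Field L] [Algebra K L]

/-- An element of the inertia group maps `A` into itself and is congruent to the identity
modulo the maximal ideal. -/
theorem inertia_mem_and_sub (A : ValuationSubring L) (σ : L ≃ₐ[K] L)
    (hσ : σ ∈ A.inertiaSubgroupIn K) :
    (∀ x ∈ A, σ x ∈ A) ∧ (∀ x ∈ A, σ x - x ∈ A.nonunits) := by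
  obtain ⟨τ, hτ, hτσ⟩ := hσ
  have hτ' : MulSemiringAction.toRingAut (A.decompositionSubgroup K)
      (IsLocalRing.ResidueField A) τ = 1 := hτ
  have key : ∀ (x : L) (hx : x ∈ A), ((τ • (⟨x, hx⟩ : A) : A) : L) = σ x := by
    intro x hx
    rw [← hτσ]
    rfl
  have hmem : ∀ x ∈ A, σ x ∈ A := by
    intro x hx
    have := (τ • (⟨x, hx⟩ : A) : A).2
    rw [key x hx] at this
    exact this
  refine ⟨hmem, ?_⟩
  intro x hx
  rw [mem_nonunits_iff_exists_mem_maximalIdeal]
  refine ⟨A.sub_mem (hmem x hx) hx, ?_⟩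
  rw [← IsLocalRing.residue_eq_zero_iff]
  have h1 : (⟨σ x - x, A.sub_mem (hmem x hx) hx⟩ : A) =
      τ • (⟨x, hx⟩ : A) - ⟨x, hx⟩ := by
    apply Subtype.ext
    simp [key x hx]
  rw [h1, map_sub, IsLocalRing.ResidueField.residue_smul, sub_eq_zero]
  have h2 : τ • (IsLocalRing.residue A ⟨x, hx⟩) =
      (MulSemiringAction.toRingAut (A.decompositionSubgroup K)
        (IsLocalRing.ResidueField A) τ) (IsLocalRing.residue A ⟨x, hx⟩) := rfl
  rw [h2, hτ']
  rfl

end Fermat.Agent.S05
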