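import Fermat.Agent.S05.OrdVal
import Fermat.Agent.Frob.Fraction
import Fermat.Agent.Frob.Profinite

/-!
# Sub-lemma (a) for S05: the `ℚ`-valued valuation attached to a valuation subring of `ℚ̄`
-/

set_option autoImplicit false
set_option linter.style.haveILetI false

open Polynomial

namespace Fermat.Agent.S05

section ordSub

variable (A : ValuationSubring (AlgebraicClosure ℚ)) (q : ℕ)

/-- valuation of a nonzero integer is a power of the valuation of `q`. -/
theorem ordSub_intCast (hq : q.Prime) (hA : (q : AlgebraicClosure ℚ) ∈ A.nonunits)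
    (c : ℤ) (hc : c ≠ 0) :
    ∃ k : ℕ, A.valuation (c : AlgebraicClosure ℚ) = A.valuation (q : AlgebraicClosure ℚ) ^ k := by
  have hfin : FiniteMultiplicity (q : ℤ) c :=
    Int.finiteMultiplicity_iff.mpr ⟨by simpa using hq.ne_one, hc⟩
  obtain ⟨c', hc', hndvd⟩ := hfin.exists_eq_pow_mul_and_not_dvd
  refine ⟨multiplicity (q : ℤ) c, ?_⟩
  have h1 : (c : AlgebraicClosure ℚ) =
      (q : AlgebraicClosure ℚ) ^ (multiplicity (q : ℤ) c) * (c' : AlgebraicClosure ℚ) := by
    conv_lhs => rw [hc']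
    push_cast
    rfl
  rw [h1, map_mul, map_pow, Fermat.Agent.Frob.valuation_intCast_eq_one A hq hA hndvd, mul_one]

theorem ordSub_isAlgebraic_int (x : AlgebraicClosure ℚ) : IsAlgebraic ℤ x :=
  Fermat.Agent.Frob.isAlgebraic_int_Qb.isAlgebraic x

theorem ordSub_val_q_pos (hq : q.Prime) :
    0 < A.valuation (q : AlgebraicClosure ℚ) := by
  rw [zero_lt_iff, Ne, map_eq_zero]
  exact_mod_cast hq.ne_zero

/-- every nonzero element has a power whose valuation is a power of the valuation of `q`. -/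
theorem ordSub_exists_pow (hq : q.Prime) (hA : (q : AlgebraicClosure ℚ) ∈ A.nonunits)
    (x : AlgebraicClosure ℚ) (hx : x ≠ 0) :
    ∃ (e : ℕ) (f : ℤ), 0 < e ∧
      A.valuation x ^ e = A.valuation (q : AlgebraicClosure ℚ) ^ f := by
  classical
  obtain ⟨p, hp0, hpx⟩ := ordSub_isAlgebraic_int x
  set v := A.valuation with hv
  set π := v (q : AlgebraicClosure ℚ) with hπ
  have hπ0 : π ≠ 0 := (ordSub_val_q_pos A q hq).ne'
  have hvx0 : v x ≠ 0 := by rw [Ne, map_eq_zero]; exact hx
  let g : ℕ → AlgebraicClosure ℚ := fun i => (p.coeff i : AlgebraicClosure ℚ) * x ^ i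
  have hsum : ∑ i ∈ p.support, g i = 0 := by
    rw [← hpx, aeval_def, eval₂_eq_sum, Polynomial.sum_def]
    simp [g]
  have hg0 : ∀ i ∈ p.support, g i ≠ 0 := by
    intro i hi
    have : p.coeff i ≠ 0 := mem_support_iff.mp hi
    exact mul_ne_zero (by exact_mod_cast this) (pow_ne_zero _ hx)
  have hne : p.support.Nonempty := by
    rw [Finset.nonempty_iff_ne_empty, Ne, support_eq_empty]; exact hp0
  obtain ⟨j, hj, hjmax⟩ := Finset.exists_max_image p.support (fun i => v (g i)) hne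
  -- there is another index with the same valuation
  have hex : ∃ i ∈ p.support, i ≠ j ∧ v (g i) = v (g j) := by
    by_contra hcon
    push Not at hcon
    have hlt : ∀ i ∈ p.support \ {j}, v (g i) < v (g j) := by
      intro i hi
      rw [Finset.mem_sdiff, Finset.mem_singleton] at hi
      exact lt_of_le_of_ne (hjmax i hi.1) (hcon i hi.1 hi.2)
    have := Valuation.map_sum_eq_of_lt v hj hlt
    rw [hsum, map_zero] at this
    exact (by rw [Ne, map_eq_zero]; exact hg0 j hj : v (g j) ≠ 0) this.symm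
  obtain ⟨i, hi, hij, hval⟩ := hex
  -- valuations of the coefficients
  obtain ⟨ki, hki⟩ := ordSub_intCast A q hq hA (p.coeff i) (mem_support_iff.mp hi)
  obtain ⟨kj, hkj⟩ := ordSub_intCast A q hq hA (p.coeff j) (mem_support_iff.mp hj)
  have hval' : π ^ ki * v x ^ i = π ^ kj * v x ^ j := by
    have := hval
    simp only [g, map_mul, map_pow] at this
    rw [hki, hkj] at this
    exact this
  -- symmetric treatment
  have key : ∀ (a b ka kb : ℕ), a < b → π ^ ka * v x ^ a = π ^ kb * v x ^ b →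
      ∃ (e : ℕ) (f : ℤ), 0 < e ∧ v x ^ e = π ^ f := by
    intro a b ka kb hab h
    refine ⟨b - a, (ka : ℤ) - kb, by omega, ?_⟩
    have hb : v x ^ b = v x ^ (b - a) * v x ^ a := by
      rw [← pow_add]; congr 1; omega
    rw [hb] at h
    have hxa : v x ^ a ≠ 0 := pow_ne_zero _ hvx0
    have h2 : π ^ ka = π ^ kb * v x ^ (b - a) := by
      apply mul_right_cancel₀ hxa
      rw [h, mul_assoc]
    rw [zpow_sub₀ hπ0, zpow_natCast, zpow_natCast, h2,
      mul_div_cancel_left₀ _ (pow_ne_zero _ hπ0)]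
  rcases lt_or_gt_of_ne hij with h | h
  · exact key i j ki kj h hval'
  · exact key j i kj ki h hval'.symm

open Classical in
/-- the order function attached to a valuation subring over `q`. -/
noncomputable def ordSub_ord (hq : q.Prime) (hA : (q : AlgebraicClosure ℚ) ∈ A.nonunits)
    (x : AlgebraicClosure ℚ) : ℚ :=
  if hx : x ≠ 0 then
    ((ordSub_exists_pow A q hq hA x hx).choose_spec.choose : ℚ) /
      ((ordSub_exists_pow A q hq hA x hx).choose : ℚ)
  else 0

theorem ordSub_val_q_lt_one (hA : (q : AlgebraicClosure ℚ) ∈ A.nonunits) :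
    A.valuation (q : AlgebraicClosure ℚ) < 1 :=
  A.mem_nonunits_iff.mp hA

theorem ordSub_zpow_inj (hq : q.Prime) (hA : (q : AlgebraicClosure ℚ) ∈ A.nonunits)
    {a b : ℤ} (h : A.valuation (q : AlgebraicClosure ℚ) ^ a =
      A.valuation (q : AlgebraicClosure ℚ) ^ b) : a = b :=
  (zpow_right_strictAnti₀ (ordSub_val_q_pos A q hq) (ordSub_val_q_lt_one A q hA)).injective h

/-- comparison of two nonzero elements via exponents. -/
theorem ordSub_le_iff_aux (hq : q.Prime) (hA : (q : AlgebraicClosure ℚ) ∈ A.nonunits)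
    {x y : AlgebraicClosure ℚ} {e e' : ℕ} {f f' : ℤ} (he : 0 < e) (he' : 0 < e')
    (hx : A.valuation x ^ e = A.valuation (q : AlgebraicClosure ℚ) ^ f)
    (hy : A.valuation y ^ e' = A.valuation (q : AlgebraicClosure ℚ) ^ f') :
    A.valuation x ≤ A.valuation y ↔ (f' : ℚ) / e' ≤ (f : ℚ) / e := by
  set π := A.valuation (q : AlgebraicClosure ℚ) with hπ
  have hπ0 : 0 < π := ordSub_val_q_pos A q hq
  have hπ1 : π < 1 := ordSub_val_q_lt_one A q hA
  have h1 : A.valuation x ^ (e * e') = π ^ (f * e') := by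
    rw [pow_mul, hx, zpow_mul, zpow_natCast]
  have h2 : A.valuation y ^ (e * e') = π ^ (f' * e) := by
    rw [mul_comm e e', pow_mul, hy, zpow_mul, zpow_natCast]
  have hee' : e * e' ≠ 0 := Nat.mul_ne_zero he.ne' he'.ne'
  rw [← pow_le_pow_iff_left₀ zero_le zero_le hee', h1, h2,
    zpow_le_zpow_iff_right_of_lt_one₀ hπ0 hπ1]
  have hepos : (0 : ℚ) < e := by exact_mod_cast he
  have he'pos : (0 : ℚ) < e' := by exact_mod_cast he'
  rw [div_le_div_iff₀ he'pos hepos]
  constructor
  · intro h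
    have : ((f' * e : ℤ) : ℚ) ≤ ((f * e' : ℤ) : ℚ) := by exact_mod_cast h
    push_cast at this
    exact this
  · intro h
    have : ((f' * e : ℤ) : ℚ) ≤ ((f * e' : ℤ) : ℚ) := by push_cast; exact h
    exact_mod_cast this

theorem ordSub_ord_spec (hq : q.Prime) (hA : (q : AlgebraicClosure ℚ) ∈ A.nonunits)
    {x : AlgebraicClosure ℚ} (hx : x ≠ 0) {e : ℕ} {f : ℤ} (he : 0 < e)
    (h : A.valuation x ^ e = A.valuation (q : AlgebraicClosure ℚ) ^ f) :
    ordSub_ord A q hq hA x = (f : ℚ) / e := by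
  rw [ordSub_ord, dif_pos hx]
  obtain ⟨he0, h0⟩ := (ordSub_exists_pow A q hq hA x hx).choose_spec.choose_spec
  apply le_antisymm
  · exact (ordSub_le_iff_aux A q hq hA he he0 h h0).mp le_rfl
  · exact (ordSub_le_iff_aux A q hq hA he0 he h0 h).mp le_rfl

theorem ordSub_le_iff (hq : q.Prime) (hA : (q : AlgebraicClosure ℚ) ∈ A.nonunits)
    {x y : AlgebraicClosure ℚ} (hx : x ≠ 0) (hy : y ≠ 0) :
    A.valuation x ≤ A.valuation y ↔ ordSub_ord A q hq hA y ≤ ordSub_ord A q hq hA x := by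
  obtain ⟨e, f, he, h⟩ := ordSub_exists_pow A q hq hA x hx
  obtain ⟨e', f', he', h'⟩ := ordSub_exists_pow A q hq hA y hy
  rw [ordSub_ord_spec A q hq hA hx he h, ordSub_ord_spec A q hq hA hy he' h']
  exact ordSub_le_iff_aux A q hq hA he he' h h'

theorem ordSub_ord_one (hq : q.Prime) (hA : (q : AlgebraicClosure ℚ) ∈ A.nonunits) :
    ordSub_ord A q hq hA 1 = 0 := by
  rw [ordSub_ord_spec A q hq hA one_ne_zero (e := 1) (f := 0) one_pos (by simp)]
  simp

theorem ordSub_ord_q (hq : q.Prime) (hA : (q : AlgebraicClosure ℚ) ∈ A.nonunits) :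
    ordSub_ord A q hq hA (q : AlgebraicClosure ℚ) = 1 := by
  have hq0 : (q : AlgebraicClosure ℚ) ≠ 0 := by exact_mod_cast hq.ne_zero
  rw [ordSub_ord_spec A q hq hA hq0 (e := 1) (f := 1) one_pos (by simp)]
  simp

theorem ordSub_ord_mul (hq : q.Prime) (hA : (q : AlgebraicClosure ℚ) ∈ A.nonunits)
    {x y : AlgebraicClosure ℚ} (hx : x ≠ 0) (hy : y ≠ 0) :
    ordSub_ord A q hq hA (x * y) = ordSub_ord A q hq hA x + ordSub_ord A q hq hA y := by
  obtain ⟨e, f, he, h⟩ := ordSub_exists_pow A q hq hA x hx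
  obtain ⟨e', f', he', h'⟩ := ordSub_exists_pow A q hq hA y hy
  have hπ0 : A.valuation (q : AlgebraicClosure ℚ) ≠ 0 := (ordSub_val_q_pos A q hq).ne'
  have hxy : A.valuation (x * y) ^ (e * e') =
      A.valuation (q : AlgebraicClosure ℚ) ^ (f * e' + f' * e) := by
    rw [map_mul, mul_pow, pow_mul, h, mul_comm e e', pow_mul, h', zpow_add₀ hπ0, zpow_mul,
      zpow_mul, zpow_natCast, zpow_natCast]
  rw [ordSub_ord_spec A q hq hA hx he h, ordSub_ord_spec A q hq hA hy he' h',
    ordSub_ord_spec A q hq hA (mul_ne_zero hx hy) (Nat.mul_pos he he') hxy]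
  have hepos : (e : ℚ) ≠ 0 := by exact_mod_cast he.ne'
  have he'pos : (e' : ℚ) ≠ 0 := by exact_mod_cast he'.ne'
  push_cast
  field_simp

end ordSub

theorem exists_ordVal_of_valuationSubring (A : ValuationSubring (AlgebraicClosure ℚ)) (q : ℕ)
    (hq : q.Prime) (hA : (q : AlgebraicClosure ℚ) ∈ A.nonunits) :
    ∃ O : OrdVal (AlgebraicClosure ℚ),
      (∀ x : AlgebraicClosure ℚ, x ≠ 0 → (x ∈ A ↔ 0 ≤ O.ord x)) ∧
      (∀ x : AlgebraicClosure ℚ, x ≠ 0 → (x ∈ A.nonunits ↔ 0 < O.ord x)) ∧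
      O.ord (q : AlgebraicClosure ℚ) = 1 := by
  refine ⟨⟨ordSub_ord A q hq hA, fun x y hx hy => ordSub_ord_mul A q hq hA hx hy, ?_⟩,
    ?_, ?_, ordSub_ord_q A q hq hA⟩
  · intro x y hx hy hxy
    rcases le_total (A.valuation x) (A.valuation y) with h | h
    · have h1 : A.valuation (x + y) ≤ A.valuation y :=
        le_trans (A.valuation.map_add x y) (max_le h le_rfl)
      exact le_trans (min_le_right _ _) ((ordSub_le_iff A q hq hA hxy hy).mp h1)
    · have h1 : A.valuation (x + y) ≤ A.valuation x :=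
        le_trans (A.valuation.map_add x y) (max_le le_rfl h)
      exact le_trans (min_le_left _ _) ((ordSub_le_iff A q hq hA hxy hx).mp h1)
  · intro x hx
    change x ∈ A ↔ 0 ≤ ordSub_ord A q hq hA x
    rw [← A.valuation_le_one_iff, ← ordSub_ord_one A q hq hA, ← ordSub_le_iff A q hq hA hx one_ne_zero,
      map_one]
  · intro x hx
    change x ∈ A.nonunits ↔ 0 < ordSub_ord A q hq hA x
    rw [A.mem_nonunits_iff, ← ordSub_ord_one A q hq hA, ← not_le, ← not_le,
      ← ordSub_le_iff A q hq hA one_ne_zero hx, map_one]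

end Fermat.Agent.S05
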