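import Fermat.Agent.S05.Unram
import Fermat.Agent.S05.OrdOfSubring
import Fermat.Agent.S05.Inertia
import Fermat.Prelude.Def_FLTPrelim_FreyPackage
import Fermat.Prelude.Def_FLTPrelim_GaloisRep
import Fermat.Prelude.Def_FLTPrelim_Ramification

/-!
# S05: the Frey curve
-/

set_option autoImplicit false
set_option linter.unusedSectionVars false
set_option linter.unusedSimpArgs false

namespace Fermat.Agent.S05

open WeierstrassCurve WeierstrassCurve.Affine OrdVal

/-- The data of a valuation subring of `ℚ̄` over `q` together with its `ℚ`-valued valuation. -/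
structure PlaceData (A : ValuationSubring (AlgebraicClosure ℚ)) (q : ℕ)
    (O : OrdVal (AlgebraicClosure ℚ)) : Prop where
  hq : q.Prime
  hA : (q : AlgebraicClosure ℚ) ∈ A.nonunits
  mem_iff : ∀ x : AlgebraicClosure ℚ, x ≠ 0 → (x ∈ A ↔ 0 ≤ O.ord x)
  nonunit_iff : ∀ x : AlgebraicClosure ℚ, x ≠ 0 → (x ∈ A.nonunits ↔ 0 < O.ord x)

namespace PlaceData

variable {A : ValuationSubring (AlgebraicClosure ℚ)} {q : ℕ} {O : OrdVal (AlgebraicClosure ℚ)}
  (D : PlaceData A q O)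
include D

lemma ge_of_mem {x : AlgebraicClosure ℚ} (hx : x ∈ A) : O.Ge x 0 := by
  by_cases h : x = 0
  · exact Or.inl h
  · exact Or.inr ((D.mem_iff x h).1 hx)

lemma mem_of_ge {x : AlgebraicClosure ℚ} (hx : O.Ge x 0) : x ∈ A := by
  by_cases h : x = 0
  · rw [h]; exact A.zero_mem
  · exact (D.mem_iff x h).2 (hx.le_ord h)

lemma gt_of_nonunit {x : AlgebraicClosure ℚ} (hx : x ∈ A.nonunits) : O.Gt x 0 := by
  by_cases h : x = 0
  · exact Or.inl h
  · exact Or.inr ((D.nonunit_iff x h).1 hx)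

lemma int_ge (n : ℤ) : O.Ge ((n : ℤ) : AlgebraicClosure ℚ) 0 :=
  D.ge_of_mem (intCast_mem A n)

lemma nat_ge (n : ℕ) : O.Ge ((n : ℕ) : AlgebraicClosure ℚ) 0 :=
  D.ge_of_mem (natCast_mem A n)

lemma int_isU {n : ℤ} (hn : ¬ (q : ℤ) ∣ n) : O.IsU ((n : ℤ) : AlgebraicClosure ℚ) := by
  have hv := Fermat.Agent.Frob.valuation_intCast_eq_one A D.hq D.hA hn
  have hn0 : ((n : ℤ) : AlgebraicClosure ℚ) ≠ 0 := by
    intro h
    rw [h, map_zero] at hv
    exact zero_ne_one hv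
  refine ⟨hn0, le_antisymm ?_ ((D.int_ge n).le_ord hn0)⟩
  by_contra hlt
  rw [not_le] at hlt
  have := (D.nonunit_iff _ hn0).2 hlt
  rw [A.mem_nonunits_iff, hv] at this
  exact lt_irrefl _ this

lemma int_gt {n : ℤ} (hn : (q : ℤ) ∣ n) : O.Gt ((n : ℤ) : AlgebraicClosure ℚ) 0 := by
  obtain ⟨k, rfl⟩ := hn
  push_cast
  have hqgt : O.Gt ((q : ℕ) : AlgebraicClosure ℚ) 0 := D.gt_of_nonunit D.hA
  exact hqgt.mul_ge0 (D.int_ge k)

lemma nat_isU {n : ℕ} (hn : ¬ q ∣ n) : O.IsU ((n : ℕ) : AlgebraicClosure ℚ) := by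
  have : ¬ (q : ℤ) ∣ (n : ℤ) := by
    intro h
    exact hn (by exact_mod_cast h)
  have := D.int_isU this
  simpa using this

/-- elements of the inertia group are "inertial" for `O` -/
lemma sub_gt_of_inertia {σ : AlgebraicClosure ℚ ≃ₐ[ℚ] AlgebraicClosure ℚ}
    (hσ : σ ∈ A.inertiaSubgroupIn ℚ) (x : AlgebraicClosure ℚ) (hx : O.Ge x 0) :
    O.Gt (σ x - x) 0 :=
  D.gt_of_nonunit ((inertia_mem_and_sub A σ hσ).2 x (D.mem_of_ge hx))

/-- The Galois action of an inertia element on points is an inertial action. -/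
lemma inertialAct (E : WeierstrassCurve.Affine ℚ)
    {σ : AlgebraicClosure ℚ ≃ₐ[ℚ] AlgebraicClosure ℚ} (hσ : σ ∈ A.inertiaSubgroupIn ℚ) :
    InertialAct (E⁄(AlgebraicClosure ℚ)) O (Point.map (W' := E) σ.toAlgHom)
      (σ : AlgebraicClosure ℚ →+* AlgebraicClosure ℚ) where
  ne_zero := by
    intro P hP
    cases P with
    | zero => exact absurd rfl hP
    | some x y h => exact Point.some_ne_zero _
  xc_eq := by
    intro P hP
    cases P with
    | zero => exact absurd rfl hP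
    | some x y h => rfl
  psi_eq := by
    intro P hP
    cases P with
    | zero => exact absurd rfl hP
    | some x y h =>
      rw [Point.map_some]
      simp only [psi_some, map_add, map_mul, map_ofNat]
      have h1 : (σ : AlgebraicClosure ℚ →+* AlgebraicClosure ℚ)
          ((E⁄(AlgebraicClosure ℚ)).a₁) = (E⁄(AlgebraicClosure ℚ)).a₁ := by
        change σ (algebraMap ℚ (AlgebraicClosure ℚ) E.a₁) = algebraMap ℚ (AlgebraicClosure ℚ) E.a₁
        exact σ.commutes _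
      have h3 : (σ : AlgebraicClosure ℚ →+* AlgebraicClosure ℚ)
          ((E⁄(AlgebraicClosure ℚ)).a₃) = (E⁄(AlgebraicClosure ℚ)).a₃ := by
        change σ (algebraMap ℚ (AlgebraicClosure ℚ) E.a₃) = algebraMap ℚ (AlgebraicClosure ℚ) E.a₃
        exact σ.commutes _
      rw [h1, h3]
      rfl
  sub_gt := fun x hx => D.sub_gt_of_inertia hσ x hx

end PlaceData

section FreyCurve

variable (P : FreyPackage)

/-- `a^p` in `ℚ̄` -/
noncomputable def frAp : AlgebraicClosure ℚ := ((P.a : ℤ) : AlgebraicClosure ℚ) ^ P.p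
/-- `b^p` in `ℚ̄` -/
noncomputable def frBp : AlgebraicClosure ℚ := ((P.b : ℤ) : AlgebraicClosure ℚ) ^ P.p
/-- `c^p` in `ℚ̄` -/
noncomputable def frCp : AlgebraicClosure ℚ := ((P.c : ℤ) : AlgebraicClosure ℚ) ^ P.p

lemma frABC : frAp P + frBp P = frCp P := by
  have h := P.hFLT
  have := congrArg (fun n : ℤ => (n : AlgebraicClosure ℚ)) h
  simp only [Int.cast_add, Int.cast_pow] at this
  exact this

lemma frey_b₂ : ((P.freyCurve : WeierstrassCurve.Affine ℚ)⁄(AlgebraicClosure ℚ)).b₂ =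
    frBp P - frAp P := by
  simp only [WeierstrassCurve.Affine.baseChange, WeierstrassCurve.baseChange, WeierstrassCurve.b₂,
    FreyPackage.freyCurve, WeierstrassCurve.map_a₁, WeierstrassCurve.map_a₂,
    WeierstrassCurve.map_a₃, WeierstrassCurve.map_a₄, WeierstrassCurve.map_a₆, frAp, frBp]
  simp only [map_add, map_mul, map_pow, map_one, map_div₀, map_sub, map_intCast, map_ofNat,
    map_neg, map_zero]
  ring

lemma frey_b₄ : ((P.freyCurve : WeierstrassCurve.Affine ℚ)⁄(AlgebraicClosure ℚ)).b₄ =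
    -(frAp P * frBp P) / 8 := by
  simp only [WeierstrassCurve.Affine.baseChange, WeierstrassCurve.baseChange, WeierstrassCurve.b₄,
    FreyPackage.freyCurve, WeierstrassCurve.map_a₁, WeierstrassCurve.map_a₂,
    WeierstrassCurve.map_a₃, WeierstrassCurve.map_a₄, WeierstrassCurve.map_a₆, frAp, frBp]
  simp only [map_add, map_mul, map_pow, map_one, map_div₀, map_sub, map_intCast, map_ofNat,
    map_neg, map_zero]
  ring

lemma frey_b₆ : ((P.freyCurve : WeierstrassCurve.Affine ℚ)⁄(AlgebraicClosure ℚ)).b₆ = 0 := by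
  simp only [WeierstrassCurve.Affine.baseChange, WeierstrassCurve.baseChange, WeierstrassCurve.b₆,
    FreyPackage.freyCurve, WeierstrassCurve.map_a₁, WeierstrassCurve.map_a₂,
    WeierstrassCurve.map_a₃, WeierstrassCurve.map_a₄, WeierstrassCurve.map_a₆, frAp, frBp]
  simp only [map_add, map_mul, map_pow, map_one, map_div₀, map_sub, map_intCast, map_ofNat,
    map_neg, map_zero]
  ring

lemma frey_b₈ : ((P.freyCurve : WeierstrassCurve.Affine ℚ)⁄(AlgebraicClosure ℚ)).b₈ =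
    -(frAp P * frBp P) ^ 2 / 256 := by
  simp only [WeierstrassCurve.Affine.baseChange, WeierstrassCurve.baseChange, WeierstrassCurve.b₈,
    FreyPackage.freyCurve, WeierstrassCurve.map_a₁, WeierstrassCurve.map_a₂,
    WeierstrassCurve.map_a₃, WeierstrassCurve.map_a₄, WeierstrassCurve.map_a₆, frAp, frBp]
  simp only [map_add, map_mul, map_pow, map_one, map_div₀, map_sub, map_intCast, map_ofNat,
    map_neg, map_zero]
  ring

/-- Legendre data with `r = 0` (node at `x = 0`, used when `q ∣ ab` or `q ∤ abc`). -/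
lemma frey_leg0 : IsLeg ((P.freyCurve : WeierstrassCurve.Affine ℚ)⁄(AlgebraicClosure ℚ)) 0
    ((frBp P - frAp P) / 4) (-(frAp P * frBp P) / 16) where
  h₂ := by rw [frey_b₂]; ring
  h₄ := by rw [frey_b₄]; ring
  h₆ := by rw [frey_b₆]; ring
  h₈ := by rw [frey_b₈]; ring

/-- Legendre data with `r = a^p/4` (used when `q ∣ c`). -/
lemma frey_leg1 : IsLeg ((P.freyCurve : WeierstrassCurve.Affine ℚ)⁄(AlgebraicClosure ℚ))
    (frAp P / 4) ((frAp P + frCp P) / 4) (frAp P * frCp P / 16) where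
  h₂ := by rw [frey_b₂, ← frABC]; ring
  h₄ := by rw [frey_b₄, ← frABC]; ring
  h₆ := by rw [frey_b₆, ← frABC]; ring
  h₈ := by rw [frey_b₈, ← frABC]; ring

end FreyCurve

section Main

variable (P : FreyPackage) {A : ValuationSubring (AlgebraicClosure ℚ)} {q : ℕ}
  {O : OrdVal (AlgebraicClosure ℚ)} (D : PlaceData A q O)
include D

lemma two_isU (hq2 : q ≠ 2) : O.IsU (2 : AlgebraicClosure ℚ) := by
  have h : ¬ q ∣ 2 := fun h => hq2 ((Nat.prime_dvd_prime_iff_eq D.hq Nat.prime_two).1 h)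
  have := D.nat_isU h
  simpa using this

lemma four_isU (hq2 : q ≠ 2) : O.IsU (4 : AlgebraicClosure ℚ) := by
  have : (4 : AlgebraicClosure ℚ) = 2 ^ 2 := by norm_num
  rw [this]; exact (two_isU D hq2).pow 2

lemma sixteen_isU (hq2 : q ≠ 2) : O.IsU (16 : AlgebraicClosure ℚ) := by
  have : (16 : AlgebraicClosure ℚ) = 2 ^ 4 := by norm_num
  rw [this]; exact (two_isU D hq2).pow 4

lemma frey_ctx (hq2 : q ≠ 2) (hqp : q ≠ P.p) {r α₂ α₄ : AlgebraicClosure ℚ}
    (L : IsLeg ((P.freyCurve : WeierstrassCurve.Affine ℚ)⁄(AlgebraicClosure ℚ)) r α₂ α₄)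
    (hr : O.Ge r 0) (hα₂ : O.Ge α₂ 0) (hα₄ : O.Ge α₄ 0) :
    TorsCtx ((P.freyCurve : WeierstrassCurve.Affine ℚ)⁄(AlgebraicClosure ℚ)) O P.p r α₂ α₄ where
  leg := L
  hnat := D.nat_ge
  h2U := two_isU D hq2
  hp := P.pp
  hp5 := P.hp5
  hpU := D.nat_isU (fun h => hqp ((Nat.prime_dvd_prime_iff_eq D.hq P.pp).1 h))
  hr := hr
  hα₂ := hα₂
  hα₄ := hα₄

omit D in
lemma int_pow_ne {n : ℤ} (hn : n ≠ 0) (k : ℕ) : ((n : ℤ) : AlgebraicClosure ℚ) ^ k ≠ 0 :=
  pow_ne_zero k (Int.cast_ne_zero.2 hn)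

lemma pow_isU {n : ℤ} (hn : ¬ (q : ℤ) ∣ n) (k : ℕ) :
    O.IsU (((n : ℤ) : AlgebraicClosure ℚ) ^ k) := (D.int_isU hn).pow k

lemma pow_ge (n : ℤ) (k : ℕ) : O.Ge (((n : ℤ) : AlgebraicClosure ℚ) ^ k) 0 :=
  (D.int_ge n).pow0 k

lemma pow_gt {n : ℤ} (hn : (q : ℤ) ∣ n) {k : ℕ} (hk : k ≠ 0) :
    O.Gt (((n : ℤ) : AlgebraicClosure ℚ) ^ k) 0 := by
  obtain ⟨k', rfl⟩ := Nat.exists_eq_succ_of_ne_zero hk
  rw [pow_succ]
  exact ((D.int_ge n).pow0 k').mul_gt0 (D.int_gt hn)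

omit D in
lemma not_dvd_of_gcd {a b : ℤ} (h : gcd a b = 1) {q : ℕ} (hq : q.Prime) (ha : (q : ℤ) ∣ a) :
    ¬ (q : ℤ) ∣ b := by
  intro hb
  have := dvd_gcd ha hb
  rw [h] at this
  have h1 : q ∣ 1 := by exact_mod_cast this
  exact hq.one_lt.ne' (Nat.dvd_one.1 h1)

end Main

end Fermat.Agent.S05
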