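import Fermat.Agent.S05.Legendre

/-!
# Torsion points in Legendre coordinates: integrality, the bound `C0`, the node order
-/

set_option autoImplicit false

namespace Fermat.Agent.S05

open WeierstrassCurve WeierstrassCurve.Affine OrdVal

variable {K : Type*} [Field K] [DecidableEq K]

/-- The standing assumptions. -/
structure TorsCtx (W : WeierstrassCurve.Affine K) (O : OrdVal K) (p : ℕ) (r α₂ α₄ : K) :
    Prop where
  leg : IsLeg W r α₂ α₄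
  hnat : ∀ n : ℕ, O.Ge (n : K) 0
  h2U : O.IsU (2 : K)
  hp : p.Prime
  hp5 : 5 ≤ p
  hpU : O.IsU (p : K)
  hr : O.Ge r 0
  hα₂ : O.Ge α₂ 0
  hα₄ : O.Ge α₄ 0

namespace TorsCtx

variable {W : WeierstrassCurve.Affine K} {O : OrdVal K} {p : ℕ} {r α₂ α₄ : K}
  (C : TorsCtx W O p r α₂ α₄)
include C

lemma hp2 : p ≠ 2 := by have := C.hp5; omega

lemma two_ne : (2 : K) ≠ 0 := C.h2U.1

lemma h4U : O.IsU (4 : K) := by
  have : (4 : K) = 2 * 2 := by norm_num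
  rw [this]; exact C.h2U.mul C.h2U

lemma xc_int {P : W.Point} (hP : P ≠ 0) (hpP : p • P = 0) : O.Ge (xc P) 0 := by
  obtain ⟨hb₂, hb₄, hb₆, hb₈⟩ := C.leg.b_integral O C.hnat C.hr C.hα₂ C.hα₄
  exact xc_integral O hb₂ hb₄ hb₆ hb₈ C.hnat C.two_ne C.hp C.hp2 C.hpU hP hpP

lemma xi_int {P : W.Point} (hP : P ≠ 0) (hpP : p • P = 0) : O.Ge (xi r P) 0 :=
  (C.xc_int hP hpP).sub C.hr

lemma psi_ne {P : W.Point} (hP : P ≠ 0) (hpP : p • P = 0) : psi P ≠ 0 := by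
  have := psi_nsmul_ne_zero C.hp C.hp2 hP hpP (k := 1) one_pos C.hp.one_lt
  rwa [one_smul] at this

lemma xi_ne {P : W.Point} (hP : P ≠ 0) (hpP : p • P = 0) : xi r P ≠ 0 := by
  intro h
  have h1 := leg_psi_sq C.leg hP
  rw [h] at h1
  have : psi P ^ 2 = 0 := by rw [h1]; ring
  exact C.psi_ne hP hpP (pow_eq_zero_iff (two_ne_zero) |>.1 this)

lemma g_ne {P : W.Point} (hP : P ≠ 0) (hpP : p • P = 0) :
    xi r P ^ 2 + α₂ * xi r P + α₄ ≠ 0 := by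
  intro h
  have h1 := leg_psi_sq C.leg hP
  rw [h] at h1
  have : psi P ^ 2 = 0 := by rw [h1]; ring
  exact C.psi_ne hP hpP (pow_eq_zero_iff (two_ne_zero) |>.1 this)

lemma g_int {P : W.Point} (hP : P ≠ 0) (hpP : p • P = 0) :
    O.Ge (xi r P ^ 2 + α₂ * xi r P + α₄) 0 := by
  have hξ := C.xi_int hP hpP
  have h1 : O.Ge (xi r P ^ 2) 0 := by simpa using hξ.pow 2
  have h2 : O.Ge (α₂ * xi r P) 0 := by simpa using C.hα₂.mul hξ
  exact (h1.add h2).add C.hα₄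

lemma psi_int {P : W.Point} (hP : P ≠ 0) (hpP : p • P = 0) : O.Ge (psi P) 0 := by
  apply Ge.of_sq_zero
  rw [leg_psi_sq C.leg hP]
  have h1 : O.Ge (4 * xi r P) 0 := by simpa using C.h4U.ge.mul (C.xi_int hP hpP)
  simpa using h1.mul (C.g_int hP hpP)

/-- `ord ψ² = ord ξ + ord g(ξ)` -/
lemma ord_psi {P : W.Point} (hP : P ≠ 0) (hpP : p • P = 0) :
    2 * O.ord (psi P) = O.ord (xi r P) + O.ord (xi r P ^ 2 + α₂ * xi r P + α₄) := by
  have h1 := leg_psi_sq C.leg hP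
  have h2 := congrArg O.ord h1
  rw [ord_sq (C.psi_ne hP hpP), O.ord_mul (mul_ne_zero C.h4U.1 (C.xi_ne hP hpP)) (C.g_ne hP hpP),
    ord_isU_mul C.h4U (C.xi_ne hP hpP)] at h2
  exact h2

lemma nsmul_tors {P : W.Point} (hpP : p • P = 0) (k : ℕ) : p • (k • P) = 0 :=
  nsmul_mem_torsion hpP k

lemma two_nsmul_ne {P : W.Point} (hP : P ≠ 0) (hpP : p • P = 0) : 2 • P ≠ 0 :=
  nsmul_ne_zero_of_lt C.hp hP hpP (by norm_num) (by have := C.hp5; omega)

end TorsCtx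

end Fermat.Agent.S05
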