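import Fermat.Agent.S05.OrdVal

/-!
# Sub-lemma II for S05: integrality of the x-coordinate of a torsion point

Pure valued-field statement about a finite sequence `x 1, …, x m` (think `x k = x(kP)`,
`P` a point of odd order `p = 2m - 1` on a Weierstrass curve with integral `b`-invariants).
-/

set_option autoImplicit false

namespace Fermat.Agent.S05

open OrdVal

section seqInt

variable {K : Type*} [Field K] {O : OrdVal K}

theorem seqInt_gt_mul_ge {x y : K} (hx : O.Gt x 0) (hy : O.Ge y 0) : O.Gt (x * y) 0 :=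
  (hx.mul_ge hy).mono (by norm_num)

theorem seqInt_ge_mul_gt {x y : K} (hx : O.Ge x 0) (hy : O.Gt y 0) : O.Gt (x * y) 0 :=
  (hx.mul_gt hy).mono (by norm_num)

theorem seqInt_ge_mul_ge {x y : K} (hx : O.Ge x 0) (hy : O.Ge y 0) : O.Ge (x * y) 0 :=
  (hx.mul hy).mono (by norm_num)

theorem seqInt_gt_mul_gt {x y : K} (hx : O.Gt x 0) (hy : O.Gt y 0) : O.Gt (x * y) 0 :=
  seqInt_gt_mul_ge hx hy.ge

theorem seqInt_ge_pow {x : K} (hx : O.Ge x 0) (n : ℕ) : O.Ge (x ^ n) 0 :=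
  (hx.pow n).mono (by simp)

theorem seqInt_gt_pow {x : K} (hx : O.Gt x 0) {n : ℕ} (hn : n ≠ 0) : O.Gt (x ^ n) 0 := by
  obtain ⟨k, rfl⟩ := Nat.exists_eq_succ_of_ne_zero hn
  rw [pow_succ]
  exact seqInt_ge_mul_gt (seqInt_ge_pow hx.ge k) hx

theorem seqInt_gt_inv {x : K} (hx : x ≠ 0) (h : O.ord x < 0) : O.Gt x⁻¹ 0 :=
  gt_of_ne_zero (by rw [O.ord_inv hx]; linarith)

theorem seqInt_isU_not_gt {x : K} (hx : O.IsU x) (h : O.Gt x 0) : False := by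
  have := h.lt_ord hx.1
  rw [hx.2] at this
  exact lt_irrefl _ this

/-- base case `k = 2`. -/
theorem seqInt_base (b₂ b₄ b₆ b₈ : K)
    (hb₂ : O.Ge b₂ 0) (hb₄ : O.Ge b₄ 0) (hb₆ : O.Ge b₆ 0) (hb₈ : O.Ge b₈ 0)
    (h2 : O.Ge (2 : K) 0) (x₁ c : K) (hx₁ : x₁ ≠ 0) (hν : O.ord x₁ < 0)
    (hD : c * (4 * x₁ ^ 3 + b₂ * x₁ ^ 2 + 2 * b₄ * x₁ + b₆)
        = x₁ ^ 4 - b₄ * x₁ ^ 2 - 2 * b₆ * x₁ - b₈) :
    c ≠ 0 ∧ O.Gt (x₁ / c - 2 ^ 2) 0 := by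
  set u := x₁⁻¹ with hu
  have hu0 : O.Gt u 0 := seqInt_gt_inv hx₁ hν
  have hux : u * x₁ = 1 := inv_mul_cancel₀ hx₁
  set E := b₂ * u + 2 * b₄ * u ^ 2 + b₆ * u ^ 3 with hE
  set E' := b₄ * u ^ 2 + 2 * b₆ * u ^ 3 + b₈ * u ^ 4 with hE'
  have hE0 : O.Gt E 0 :=
    ((seqInt_ge_mul_gt hb₂ hu0).add
      (seqInt_ge_mul_gt (seqInt_ge_mul_ge h2 hb₄) (seqInt_gt_pow hu0 (by norm_num)))).add
      (seqInt_ge_mul_gt hb₆ (seqInt_gt_pow hu0 (by norm_num)))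
  have hE'0 : O.Gt E' 0 :=
    ((seqInt_ge_mul_gt hb₄ (seqInt_gt_pow hu0 (by norm_num))).add
      (seqInt_ge_mul_gt (seqInt_ge_mul_ge h2 hb₆) (seqInt_gt_pow hu0 (by norm_num)))).add
      (seqInt_ge_mul_gt hb₈ (seqInt_gt_pow hu0 (by norm_num)))
  have hU : O.IsU (1 - E') := isU_one.sub_gt hE'0
  have h1 : c * (4 + E) = x₁ * (1 - E') := by
    have h3 : c * (4 + E) = u ^ 3 * (c * (4 * x₁ ^ 3 + b₂ * x₁ ^ 2 + 2 * b₄ * x₁ + b₆)) := by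
      have e1 : u ^ 3 * x₁ ^ 3 = 1 := by rw [← mul_pow, hux, one_pow]
      have e2 : u ^ 3 * x₁ ^ 2 = u := by
        calc u ^ 3 * x₁ ^ 2 = u * (u * x₁) ^ 2 := by ring
          _ = u := by rw [hux]; ring
      have e3 : u ^ 3 * x₁ = u ^ 2 := by
        calc u ^ 3 * x₁ = u ^ 2 * (u * x₁) := by ring
          _ = u ^ 2 := by rw [hux]; ring
      simp only [hE]
      linear_combination (-(4 * c)) * e1 - c * b₂ * e2 - 2 * c * b₄ * e3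
    have h4 : x₁ * (1 - E') = u ^ 3 * (x₁ ^ 4 - b₄ * x₁ ^ 2 - 2 * b₆ * x₁ - b₈) := by
      have e1 : u ^ 3 * x₁ ^ 4 = x₁ := by
        calc u ^ 3 * x₁ ^ 4 = x₁ * (u * x₁) ^ 3 := by ring
          _ = x₁ := by rw [hux]; ring
      have e2 : u ^ 3 * x₁ ^ 2 = u := by
        calc u ^ 3 * x₁ ^ 2 = u * (u * x₁) ^ 2 := by ring
          _ = u := by rw [hux]; ring
      have e3 : u ^ 3 * x₁ = u ^ 2 := by
        calc u ^ 3 * x₁ = u ^ 2 * (u * x₁) := by ring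
          _ = u ^ 2 := by rw [hux]; ring
      have e4 : x₁ * u ^ 2 = u := by
        calc x₁ * u ^ 2 = u * (u * x₁) := by ring
          _ = u := by rw [hux]; ring
      have e5 : x₁ * u ^ 3 = u ^ 2 := by
        calc x₁ * u ^ 3 = u ^ 2 * (u * x₁) := by ring
          _ = u ^ 2 := by rw [hux]; ring
      have e6 : x₁ * u ^ 4 = u ^ 3 := by
        calc x₁ * u ^ 4 = u ^ 3 * (u * x₁) := by ring
          _ = u ^ 3 := by rw [hux]; ring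
      simp only [hE']
      linear_combination (-1 : K) * e1 + b₄ * e2 + 2 * b₆ * e3 - b₄ * e4 - 2 * b₆ * e5 - b₈ * e6
    rw [h3, h4, hD]
  have hrhs : x₁ * (1 - E') ≠ 0 := mul_ne_zero hx₁ hU.1
  have hc : c ≠ 0 := by
    rintro rfl
    rw [zero_mul] at h1
    exact hrhs h1.symm
  refine ⟨hc, ?_⟩
  have h5 : x₁ / c - 2 ^ 2 = (E + 4 * E') * (1 - E')⁻¹ := by
    have hU1 := hU.1
    field_simp
    linear_combination (-1 : K) * h1
  rw [h5]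
  have h4 : O.Ge (4 : K) 0 := by
    have : (4 : K) = 2 * 2 := by norm_num
    rw [this]; exact seqInt_ge_mul_ge h2 h2
  exact seqInt_gt_mul_ge (hE0.add (seqInt_ge_mul_gt h4 hE'0)) hU.inv.ge

/-- induction step. -/
theorem seqInt_step (b₂ b₄ b₆ b₈ : K)
    (hb₂ : O.Ge b₂ 0) (hb₄ : O.Ge b₄ 0) (hb₆ : O.Ge b₆ 0) (hb₈ : O.Ge b₈ 0)
    (h2 : O.Ge (2 : K) 0) (x₁ a b c n : K) (hn : O.Ge n 0) (hone : O.Ge (1 : K) 0)
    (hx₁ : x₁ ≠ 0) (hν : O.ord x₁ < 0) (ha : a ≠ 0) (hb : b ≠ 0)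
    (hwa : O.Gt (x₁ / a - (n - 1) ^ 2) 0) (hwb : O.Gt (x₁ / b - n ^ 2) 0)
    (hP : c * a * (b - x₁) ^ 2 = b ^ 2 * x₁ ^ 2 - b₄ * b * x₁ - b₆ * (b + x₁) - b₈)
    (hS : (c + a) * (b - x₁) ^ 2
        = 2 * b * x₁ * (b + x₁) + b₂ * b * x₁ + b₄ * (b + x₁) + b₆) :
    c ≠ 0 ∧ O.Gt (x₁ / c - (n + 1) ^ 2) 0 := by
  set u := x₁⁻¹ with hu
  have hu0 : O.Gt u 0 := seqInt_gt_inv hx₁ hν
  have hux : u * x₁ = 1 := inv_mul_cancel₀ hx₁
  set wa := x₁ / a with hwa_def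
  set wb := x₁ / b with hwb_def
  have hwb0 : O.Ge wb 0 := by
    have : wb = (wb - n ^ 2) + n ^ 2 := by ring
    rw [this]
    exact hwb.ge.add (seqInt_ge_pow hn 2)
  have hn1 : O.Ge (n - 1) 0 := hn.sub hone
  have hwa0 : O.Ge wa 0 := by
    have : wa = (wa - (n - 1) ^ 2) + (n - 1) ^ 2 := by ring
    rw [this]
    exact hwa.ge.add (seqInt_ge_pow hn1 2)
  set ub := b⁻¹ with hub
  have hubb : ub * b = 1 := inv_mul_cancel₀ hb
  have hub_eq : ub = wb * u := by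
    simp only [hub, hwb_def, hu]
    field_simp
  have hub0 : O.Gt ub 0 := by
    rw [hub_eq]; exact seqInt_ge_mul_gt hwb0 hu0
  set U := 1 - (b₄ * ub * u + b₆ * (ub + u) * ub * u + b₈ * ub ^ 2 * u ^ 2) with hUdef
  have hUgt : O.Gt (b₄ * ub * u + b₆ * (ub + u) * ub * u + b₈ * ub ^ 2 * u ^ 2) 0 :=
    ((seqInt_gt_mul_gt (seqInt_ge_mul_gt hb₄ hub0) hu0).add
      (seqInt_gt_mul_gt (seqInt_gt_mul_gt (seqInt_ge_mul_gt hb₆ (hub0.add hu0)) hub0) hu0)).add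
      (seqInt_gt_mul_gt (seqInt_ge_mul_gt hb₈ (seqInt_gt_pow hub0 (by norm_num)))
        (seqInt_gt_pow hu0 (by norm_num)))
  have hU : O.IsU U := isU_one.sub_gt hUgt
  have hU1 : O.Gt (U - 1) 0 := by
    have : U - 1 = -(b₄ * ub * u + b₆ * (ub + u) * ub * u + b₈ * ub ^ 2 * u ^ 2) := by
      simp only [hUdef]; ring
    rw [this]; exact hUgt.neg
  set e := b₂ * ub + b₄ * (ub + u) * ub + b₆ * ub ^ 2 * u with hedef
  have he0 : O.Gt e 0 :=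
    ((seqInt_ge_mul_gt hb₂ hub0).add
      (seqInt_gt_mul_gt (seqInt_ge_mul_gt hb₄ (hub0.add hu0)) hub0)).add
      (seqInt_gt_mul_gt (seqInt_ge_mul_gt hb₆ (seqInt_gt_pow hub0 (by norm_num))) hu0)
  -- rewrite hP and hS
  have hP' : c * a * (b - x₁) ^ 2 = b ^ 2 * x₁ ^ 2 * U := by
    rw [hP]
    simp only [hUdef, hub, hu]
    field_simp
    ring
  have hS' : (c + a) * (b - x₁) ^ 2 = b ^ 2 * x₁ * (2 * (1 + wb) + e) := by
    rw [hS]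
    simp only [hedef, hwb_def, hub, hu]
    field_simp
    ring
  have hrhs : b ^ 2 * x₁ ^ 2 * U ≠ 0 :=
    mul_ne_zero (mul_ne_zero (pow_ne_zero _ hb) (pow_ne_zero _ hx₁)) hU.1
  have hc : c ≠ 0 := by
    rintro rfl
    rw [zero_mul, zero_mul] at hP'
    exact hrhs hP'.symm
  refine ⟨hc, ?_⟩
  set wc := x₁ / c with hwc_def
  have hd : (b - x₁) ^ 2 ≠ 0 := by
    intro h0
    rw [h0, mul_zero] at hP'
    exact hrhs hP'.symm
  have key : (wc + wa) * U = 2 * (1 + wb) + e := by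
    have hnz : c * a * (b ^ 2 * x₁) ≠ 0 :=
      mul_ne_zero (mul_ne_zero hc ha) (mul_ne_zero (pow_ne_zero _ hb) hx₁)
    apply mul_right_cancel₀ hnz
    have h1 : (wc + wa) * (c * a) = x₁ * (c + a) := by
      simp only [hwc_def, hwa_def]
      field_simp
      ring
    calc (wc + wa) * U * (c * a * (b ^ 2 * x₁))
        = ((wc + wa) * (c * a)) * (b ^ 2 * x₁ * U) := by ring
      _ = (x₁ * (c + a)) * (b ^ 2 * x₁ * U) := by rw [h1]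
      _ = (c + a) * (b ^ 2 * x₁ ^ 2 * U) := by ring
      _ = (c + a) * (c * a * (b - x₁) ^ 2) := by rw [hP']
      _ = c * a * ((c + a) * (b - x₁) ^ 2) := by ring
      _ = c * a * (b ^ 2 * x₁ * (2 * (1 + wb) + e)) := by rw [hS']
      _ = (2 * (1 + wb) + e) * (c * a * (b ^ 2 * x₁)) := by ring
  have hfin : wc - (n + 1) ^ 2 =
      (2 * (wb - n ^ 2) - (wa - (n - 1) ^ 2) + e - (U - 1) * (wa + (n + 1) ^ 2)) * U⁻¹ := by
    have hU0 := hU.1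
    field_simp
    linear_combination key
  rw [hfin]
  refine seqInt_gt_mul_ge ?_ hU.inv.ge
  refine (((seqInt_ge_mul_gt h2 hwb).sub hwa).add he0).sub ?_
  exact seqInt_gt_mul_ge hU1 (hwa0.add (seqInt_ge_pow (hn.add hone) 2))

end seqInt

theorem integral_of_torsion_seq {K : Type*} [Field K] (O : OrdVal K)
    (b₂ b₄ b₆ b₈ : K)
    (hb₂ : O.Ge b₂ 0) (hb₄ : O.Ge b₄ 0) (hb₆ : O.Ge b₆ 0) (hb₈ : O.Ge b₈ 0)
    (hnat : ∀ n : ℕ, O.Ge (n : K) 0)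
    (p m : ℕ) (hpm : p + 1 = 2 * m) (hm : 2 ≤ m) (hpU : O.IsU (p : K))
    (x : ℕ → K) (hx1 : x 1 ≠ 0)
    (hD : x 2 * (4 * x 1 ^ 3 + b₂ * x 1 ^ 2 + 2 * b₄ * x 1 + b₆)
        = x 1 ^ 4 - b₄ * x 1 ^ 2 - 2 * b₆ * x 1 - b₈)
    (hP : ∀ k, 2 ≤ k → k < m → x (k + 1) * x (k - 1) * (x k - x 1) ^ 2
        = x k ^ 2 * x 1 ^ 2 - b₄ * x k * x 1 - b₆ * (x k + x 1) - b₈)
    (hS : ∀ k, 2 ≤ k → k < m → (x (k + 1) + x (k - 1)) * (x k - x 1) ^ 2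
        = 2 * x k * x 1 * (x k + x 1) + b₂ * x k * x 1 + b₄ * (x k + x 1) + b₆)
    (hend : x m = x (m - 1)) :
    0 ≤ O.ord (x 1) := by
  by_contra hneg
  rw [not_le] at hneg
  have h2 : O.Ge (2 : K) 0 := by simpa using hnat 2
  have hone : O.Ge (1 : K) 0 := by simpa using hnat 1
  -- the claim
  have hclaim : ∀ j : ℕ, j + 2 ≤ m →
      (x (j + 1) ≠ 0 ∧ O.Gt (x 1 / x (j + 1) - ((j + 1 : ℕ) : K) ^ 2) 0) ∧
      (x (j + 2) ≠ 0 ∧ O.Gt (x 1 / x (j + 2) - ((j + 2 : ℕ) : K) ^ 2) 0) := by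
    intro j
    induction j with
    | zero =>
      intro _
      refine ⟨⟨hx1, ?_⟩, ?_⟩
      · left
        rw [div_self hx1]; simp
      · have := seqInt_base b₂ b₄ b₆ b₈ hb₂ hb₄ hb₆ hb₈ h2 (x 1) (x 2) hx1 hneg hD
        simpa using this
    | succ j ih =>
      intro hj
      obtain ⟨⟨ha, hwa⟩, ⟨hb, hwb⟩⟩ := ih (by omega)
      refine ⟨⟨hb, hwb⟩, ?_⟩
      have hPk := hP (j + 2) (by omega) (by omega)
      have hSk := hS (j + 2) (by omega) (by omega)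
      have e1 : j + 2 - 1 = j + 1 := by omega
      rw [e1] at hPk hSk
      have hwa' : O.Gt (x 1 / x (j + 1) - (((j + 2 : ℕ) : K) - 1) ^ 2) 0 := by
        have : (((j + 2 : ℕ) : K) - 1) = ((j + 1 : ℕ) : K) := by push_cast; ring
        rw [this]; exact hwa
      have := seqInt_step b₂ b₄ b₆ b₈ hb₂ hb₄ hb₆ hb₈ h2 (x 1) (x (j + 1)) (x (j + 2))
        (x (j + 2 + 1)) ((j + 2 : ℕ) : K) (hnat _) hone hx1 hneg ha hb hwa' hwb hPk hSk
      have e2 : (((j + 2 : ℕ) : K) + 1) = ((j + 1 + 2 : ℕ) : K) := by push_cast; ring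
      rw [e2] at this
      exact this
  -- apply at j = m - 2
  obtain ⟨⟨h1, hw1⟩, ⟨h2', hw2⟩⟩ := hclaim (m - 2) (by omega)
  have em1 : m - 2 + 1 = m - 1 := by omega
  have em2 : m - 2 + 2 = m := by omega
  rw [em1] at h1 hw1
  rw [em2] at h2' hw2
  rw [hend] at hw2
  have hdiff := hw2.sub hw1
  have hp : (x 1 / x (m - 1) - ((m : ℕ) : K) ^ 2) - (x 1 / x (m - 1) - ((m - 1 : ℕ) : K) ^ 2)
      = -(p : K) := by
    have hm1 : ((m - 1 : ℕ) : K) = (m : K) - 1 := by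
      rw [Nat.cast_sub (by omega)]; simp
    have hpK : (p : K) = 2 * (m : K) - 1 := by
      have : ((p + 1 : ℕ) : K) = ((2 * m : ℕ) : K) := by rw [hpm]
      push_cast at this
      linear_combination this
    rw [hm1, hpK]; ring
  rw [hp] at hdiff
  have := hdiff.neg
  rw [neg_neg] at this
  exact seqInt_isU_not_gt hpU this

end Fermat.Agent.S05
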