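import Fermat.Agent.S05.OrdVal
import Fermat.Agent.S05.AddFormulas
import Fermat.Agent.S05.SeqIntegral

/-!
# Torsion points of odd prime order: multiples and integrality of `x`-coordinates
-/

set_option autoImplicit false

namespace Fermat.Agent.S05

open WeierstrassCurve WeierstrassCurve.Affine OrdVal

variable {K : Type*} [Field K] [DecidableEq K] {W : WeierstrassCurve.Affine K}

/-- Multiples `k • P`, `0 < k < p`, of a nonzero point killed by a prime `p` are nonzero. -/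
lemma nsmul_ne_zero_of_lt {p : ℕ} (hp : p.Prime) {P : W.Point} (hP : P ≠ 0) (hpP : p • P = 0)
    {k : ℕ} (hk0 : 0 < k) (hkp : k < p) : k • P ≠ 0 := by
  intro h
  have hord : addOrderOf P = p :=
    haveI : Fact p.Prime := ⟨hp⟩
    addOrderOf_eq_prime hpP hP
  have hdvd : p ∣ k := by
    rw [← hord]
    exact addOrderOf_dvd_of_nsmul_eq_zero h
  exact absurd (Nat.le_of_dvd hk0 hdvd) (not_le.2 hkp)

lemma nsmul_mem_torsion {p : ℕ} {P : W.Point} (hpP : p • P = 0) (k : ℕ) : p • (k • P) = 0 := by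
  rw [smul_comm, hpP, smul_zero]

/-- `psi (k • P) ≠ 0` for `0 < k < p`, `p` an odd prime. -/
lemma psi_nsmul_ne_zero {p : ℕ} (hp : p.Prime) (hp2 : p ≠ 2) {P : W.Point} (hP : P ≠ 0)
    (hpP : p • P = 0) {k : ℕ} (hk0 : 0 < k) (hkp : k < p) : psi (k • P) ≠ 0 := by
  have hk : k • P ≠ 0 := nsmul_ne_zero_of_lt hp hP hpP hk0 hkp
  intro h
  rw [psi_eq_zero_iff _ hk] at h
  -- `2 • (k • P) = 0`
  have h2 : (2 * k) • P = 0 := by
    rw [mul_smul, two_smul]
    nth_rewrite 1 [h]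
    exact neg_add_cancel _
  have hord : addOrderOf P = p :=
    haveI : Fact p.Prime := ⟨hp⟩
    addOrderOf_eq_prime hpP hP
  have hdvd : p ∣ 2 * k := by
    rw [← hord]
    exact addOrderOf_dvd_of_nsmul_eq_zero h2
  rcases (Nat.Prime.dvd_mul hp).1 hdvd with h' | h'
  · have := Nat.le_of_dvd (by norm_num) h'
    have := hp.two_le
    omega
  · exact absurd (Nat.le_of_dvd hk0 h') (not_le.2 hkp)

/-- `x(k • P) ≠ x(P)` for `2 ≤ k ≤ p - 2`. -/
lemma xc_nsmul_ne {p : ℕ} (hp : p.Prime) {P : W.Point} (hP : P ≠ 0)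
    (hpP : p • P = 0) {k : ℕ} (hk2 : 2 ≤ k) (hkp : k + 1 < p) : xc (k • P) ≠ xc P := by
  have hk : k • P ≠ 0 := nsmul_ne_zero_of_lt hp hP hpP (by omega) (by omega)
  intro h
  rcases (xc_eq_iff _ _ hk hP).1 h with h' | h'
  · -- `(k - 1) • P = 0`
    have : (k - 1) • P = 0 := by
      have hk1 : k = (k - 1) + 1 := by omega
      rw [hk1, succ_nsmul] at h'
      exact add_eq_right.1 h'
    exact nsmul_ne_zero_of_lt hp hP hpP (by omega) (by omega) this
  · have : (k + 1) • P = 0 := by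
      rw [succ_nsmul, h']
      exact neg_add_cancel _
    exact nsmul_ne_zero_of_lt hp hP hpP (by omega) hkp this

/-- the identities for the sequence `x k = xc (k • P)`: duplication -/
lemma seq_double {p : ℕ} (hp : p.Prime) (hp2 : p ≠ 2) {P : W.Point} (hP : P ≠ 0)
    (hpP : p • P = 0) :
    xc (2 • P) * psiSq W (xc P) = dNum W (xc P) := by
  have hψ : psi P ≠ 0 := by
    have := psi_nsmul_ne_zero hp hp2 hP hpP (k := 1) one_pos hp.one_lt
    rwa [one_smul] at this
  have := (xc_double P hP hψ).2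
  rw [psi_sq P hP, ← two_smul ℕ] at this
  exact this

lemma seq_prod (h2 : (2 : K) ≠ 0) {p : ℕ} (hp : p.Prime) {P : W.Point} (hP : P ≠ 0)
    (hpP : p • P = 0) {k : ℕ} (hk2 : 2 ≤ k) (hkp : k + 1 < p) :
    xc ((k + 1) • P) * xc ((k - 1) • P) * (xc (k • P) - xc P) ^ 2 = pNum W (xc (k • P)) (xc P) := by
  have hk : k • P ≠ 0 := nsmul_ne_zero_of_lt hp hP hpP (by omega) (by omega)
  have hne := xc_nsmul_ne hp hP hpP hk2 hkp
  have := xc_prod h2 (k • P) P hk hP hne
  have e1 : k • P + P = (k + 1) • P := (succ_nsmul P k).symm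
  have e2 : k • P - P = (k - 1) • P := by
    have hk1 : k = (k - 1) + 1 := by omega
    nth_rewrite 1 [hk1]
    rw [succ_nsmul]; abel
  rwa [e1, e2] at this

lemma seq_sum (h2 : (2 : K) ≠ 0) {p : ℕ} (hp : p.Prime) {P : W.Point} (hP : P ≠ 0)
    (hpP : p • P = 0) {k : ℕ} (hk2 : 2 ≤ k) (hkp : k + 1 < p) :
    (xc ((k + 1) • P) + xc ((k - 1) • P)) * (xc (k • P) - xc P) ^ 2 =
      sNum W (xc (k • P)) (xc P) := by
  have hk : k • P ≠ 0 := nsmul_ne_zero_of_lt hp hP hpP (by omega) (by omega)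
  have hne := xc_nsmul_ne hp hP hpP hk2 hkp
  have := xc_sum h2 (k • P) P hk hP hne
  have e1 : k • P + P = (k + 1) • P := (succ_nsmul P k).symm
  have e2 : k • P - P = (k - 1) • P := by
    have hk1 : k = (k - 1) + 1 := by omega
    nth_rewrite 1 [hk1]
    rw [succ_nsmul]; abel
  rwa [e1, e2] at this

/-- `x(m • P) = x((m-1) • P)` when `p = 2m - 1`. -/
lemma seq_end {p m : ℕ} (hpm : p + 1 = 2 * m) {P : W.Point} (hpP : p • P = 0) :
    xc (m • P) = xc ((m - 1) • P) := by
  have h : m • P = -((m - 1) • P) := by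
    rw [eq_neg_iff_add_eq_zero, ← add_smul]
    have : m + (m - 1) = p := by omega
    rw [this, hpP]
  rw [h, xc_neg]

/-- **Integrality**: a nonzero point of odd prime order `p` (with `p` a unit) on a Weierstrass
curve with integral coefficients has integral `x`-coordinate. -/
theorem xc_integral (O : OrdVal K) (hb₂ : O.Ge W.b₂ 0) (hb₄ : O.Ge W.b₄ 0) (hb₆ : O.Ge W.b₆ 0)
    (hb₈ : O.Ge W.b₈ 0) (hnat : ∀ n : ℕ, O.Ge (n : K) 0) (h2 : (2 : K) ≠ 0)
    {p : ℕ} (hp : p.Prime) (hp2 : p ≠ 2) (hpU : O.IsU (p : K))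
    {P : W.Point} (hP : P ≠ 0) (hpP : p • P = 0) : O.Ge (xc P) 0 := by
  by_cases hx : xc P = 0
  · exact Or.inl hx
  right
  obtain ⟨m, hm⟩ : ∃ m, p + 1 = 2 * m := by
    rcases hp.eq_two_or_odd with h | h
    · exact absurd h hp2
    · exact ⟨(p + 1) / 2, by omega⟩
  have hp3 : 3 ≤ p := by
    have := hp.two_le
    omega
  have key := integral_of_torsion_seq O W.b₂ W.b₄ W.b₆ W.b₈ hb₂ hb₄ hb₆ hb₈ hnat p m hm
    (by omega) hpU (fun k => xc (k • P)) (by simpa using hx)
    (by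
      have := seq_double hp hp2 hP hpP
      simpa [psiSq, dNum] using this)
    (by
      intro k hk2 hkm
      have := seq_prod h2 hp hP hpP hk2 (by omega : k + 1 < p)
      simpa [pNum] using this)
    (by
      intro k hk2 hkm
      have := seq_sum h2 hp hP hpP hk2 (by omega : k + 1 < p)
      simpa [sNum] using this)
    (seq_end hm hpP)
  simpa using key

end Fermat.Agent.S05
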