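import Fermat.Agent.S05.OrdVal
import Fermat.Agent.S05.AddFormulas
import Fermat.Agent.S05.Torsion
import Fermat.Agent.S05.SeqNode

/-!
# Shifted ("Legendre") coordinates `ξ = x - r` with `ψ² = 4 ξ (ξ² + α₂ ξ + α₄)`
-/

set_option autoImplicit false

namespace Fermat.Agent.S05

open WeierstrassCurve WeierstrassCurve.Affine OrdVal

variable {K : Type*} [Field K]

/-- `IsLeg W r α₂ α₄` says that in the coordinate `ξ = x - r` the `2`-division polynomial of `W`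
is `4 ξ (ξ² + α₂ ξ + α₄)`. -/
structure IsLeg (W : WeierstrassCurve.Affine K) (r α₂ α₄ : K) : Prop where
  h₂ : W.b₂ = 4 * α₂ - 12 * r
  h₄ : W.b₄ = 2 * α₄ - 4 * α₂ * r + 6 * r ^ 2
  h₆ : W.b₆ = -4 * r * (r ^ 2 - α₂ * r + α₄)
  h₈ : W.b₈ = -4 * r * (α₂ - 3 * r) * (r ^ 2 - α₂ * r + α₄) - (α₄ - 2 * α₂ * r + 3 * r ^ 2) ^ 2

namespace IsLeg

variable {W : WeierstrassCurve.Affine K} {r α₂ α₄ : K} (L : IsLeg W r α₂ α₄)
include L

lemma psiSq_eq (x : K) :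
    psiSq W x = 4 * (x - r) * ((x - r) ^ 2 + α₂ * (x - r) + α₄) := by
  simp only [psiSq, L.h₂, L.h₄, L.h₆]
  ring

lemma dNum_eq (x : K) :
    dNum W x - r * psiSq W x = ((x - r) ^ 2 - α₄) ^ 2 := by
  simp only [psiSq, dNum, L.h₂, L.h₄, L.h₆, L.h₈]
  ring

lemma sNum_eq (x₁ x₂ : K) :
    sNum W x₁ x₂ - 2 * r * (x₁ - x₂) ^ 2 =
      2 * (((x₁ - r) * (x₂ - r) + α₄) * ((x₁ - r) + (x₂ - r)) + 2 * α₂ * (x₁ - r) * (x₂ - r)) := by
  simp only [sNum, L.h₂, L.h₄, L.h₆]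
  ring

lemma pNum_eq (x₁ x₂ : K) :
    pNum W x₁ x₂ - r * sNum W x₁ x₂ + r ^ 2 * (x₁ - x₂) ^ 2 =
      ((x₁ - r) * (x₂ - r) - α₄) ^ 2 := by
  simp only [sNum, pNum, L.h₂, L.h₄, L.h₆, L.h₈]
  ring


/-- integrality of the `b`-invariants from integrality of `r, α₂, α₄`. -/
lemma b_integral (O : OrdVal K) (hnat : ∀ n : ℕ, O.Ge (n : K) 0) (hr : O.Ge r 0)
    (hα₂ : O.Ge α₂ 0) (hα₄ : O.Ge α₄ 0) :
    O.Ge W.b₂ 0 ∧ O.Ge W.b₄ 0 ∧ O.Ge W.b₆ 0 ∧ O.Ge W.b₈ 0 := by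
  have h2 : O.Ge (2 : K) 0 := by simpa using hnat 2
  have h3 : O.Ge (3 : K) 0 := by simpa using hnat 3
  have h4 : O.Ge (4 : K) 0 := by simpa using hnat 4
  have h6 : O.Ge (6 : K) 0 := by simpa using hnat 6
  have h12 : O.Ge (12 : K) 0 := by simpa using hnat 12
  have m : ∀ {x y : K}, O.Ge x 0 → O.Ge y 0 → O.Ge (x * y) 0 := fun hx hy => by
    simpa using hx.mul hy
  have hr2 : O.Ge (r ^ 2) 0 := by simpa using hr.pow 2
  refine ⟨?_, ?_, ?_, ?_⟩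
  · rw [L.h₂]; exact (m h4 hα₂).sub (m h12 hr)
  · rw [L.h₄]; exact ((m h2 hα₄).sub (m (m h4 hα₂) hr)).add (m h6 hr2)
  · rw [L.h₆]
    exact m (m h4.neg hr) ((hr2.sub (m hα₂ hr)).add hα₄)
  · rw [L.h₈]
    refine (m (m (m h4.neg hr) (hα₂.sub (m h3 hr))) ((hr2.sub (m hα₂ hr)).add hα₄)).sub ?_
    simpa using (((hα₄.sub (m (m h2 hα₂) hr)).add (m h3 hr2)).pow 2)

end IsLeg

section Node

variable {K : Type*} [Field K] [DecidableEq K] {W : WeierstrassCurve.Affine K} {r α₂ α₄ : K}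

/-- The shifted coordinate `ξ = x - r` of a point. -/
def xi (r : K) (P : W.Point) : K := xc P - r

/-- duplication in `ξ`-coordinates -/
lemma leg_double (L : IsLeg W r α₂ α₄) {p : ℕ} (hp : p.Prime) (hp2 : p ≠ 2) {P : W.Point}
    (hP : P ≠ 0) (hpP : p • P = 0) :
    xi r (2 • P) * (4 * xi r P * (xi r P ^ 2 + α₂ * xi r P + α₄)) = (xi r P ^ 2 - α₄) ^ 2 := by
  have h := seq_double hp hp2 hP hpP
  have h1 := L.psiSq_eq (xc P)
  have h2 := L.dNum_eq (xc P)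
  simp only [xi]
  rw [← h1, ← h2]
  linear_combination h

lemma leg_prod (L : IsLeg W r α₂ α₄) (h2 : (2 : K) ≠ 0) {p : ℕ} (hp : p.Prime) {P : W.Point}
    (hP : P ≠ 0) (hpP : p • P = 0) {k : ℕ} (hk2 : 2 ≤ k) (hkp : k + 1 < p) :
    xi r ((k + 1) • P) * xi r ((k - 1) • P) * (xi r (k • P) - xi r P) ^ 2 =
      (xi r (k • P) * xi r P - α₄) ^ 2 := by
  have hpr := seq_prod h2 hp hP hpP hk2 hkp
  have hsm := seq_sum h2 hp hP hpP hk2 hkp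
  have h1 := L.pNum_eq (xc (k • P)) (xc P)
  simp only [xi]
  rw [← h1]
  linear_combination hpr - r * hsm

lemma leg_sum (L : IsLeg W r α₂ α₄) (h2 : (2 : K) ≠ 0) {p : ℕ} (hp : p.Prime) {P : W.Point}
    (hP : P ≠ 0) (hpP : p • P = 0) {k : ℕ} (hk2 : 2 ≤ k) (hkp : k + 1 < p) :
    (xi r ((k + 1) • P) + xi r ((k - 1) • P)) * (xi r (k • P) - xi r P) ^ 2 =
      2 * ((xi r (k • P) * xi r P + α₄) * (xi r (k • P) + xi r P) +
        2 * α₂ * xi r (k • P) * xi r P) := by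
  have hsm := seq_sum h2 hp hP hpP hk2 hkp
  have h1 := L.sNum_eq (xc (k • P)) (xc P)
  simp only [xi]
  rw [← h1]
  linear_combination hsm

/-- `ψ(P)² = 4 ξ (ξ² + α₂ ξ + α₄)` -/
lemma leg_psi_sq (L : IsLeg W r α₂ α₄) {P : W.Point} (hP : P ≠ 0) :
    psi P ^ 2 = 4 * xi r P * (xi r P ^ 2 + α₂ * xi r P + α₄) := by
  rw [psi_sq P hP, L.psiSq_eq]; rfl

end Node

end Fermat.Agent.S05
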