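import Fermat.Agent.S05.Ctx

/-!
# Multiplicative case: points reducing to the node
-/

set_option autoImplicit false
set_option linter.unusedSectionVars false

namespace Fermat.Agent.S05

open WeierstrassCurve WeierstrassCurve.Affine OrdVal

variable {K : Type*} [Field K] [DecidableEq K]

namespace TorsCtx

variable {W : WeierstrassCurve.Affine K} {O : OrdVal K} {p : ℕ} {r α₂ α₄ : K}
  (C : TorsCtx W O p r α₂ α₄)
include C

/-- **C0**: a nonzero `p`-torsion point has `ord ξ ≤ ord α₄`. -/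
lemma ord_xi_le (hα₂U : O.IsU α₂) (hα₄0 : α₄ ≠ 0) (hα₄pos : 0 < O.ord α₄)
    {P : W.Point} (hP : P ≠ 0) (hpP : p • P = 0) : O.ord (xi r P) ≤ O.ord α₄ := by
  by_contra hlt
  rw [not_le] at hlt
  set ξ := xi r P with hξdef
  have hξ0 : ξ ≠ 0 := C.xi_ne hP hpP
  have hd := leg_double C.leg C.hp C.hp2 hP hpP
  rw [← hξdef] at hd
  -- `ord (ξ² - α₄) = ord α₄`
  have hξsq : O.Gt (ξ ^ 2) (O.ord α₄) := by
    right
    rw [ord_sq hξ0]
    linarith
  have h1 : ξ ^ 2 - α₄ ≠ 0 ∧ O.ord (ξ ^ 2 - α₄) = O.ord α₄ := by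
    have := ord_sub_eq_of_Gt hα₄0 hξsq
    have e : ξ ^ 2 - α₄ = -(α₄ - ξ ^ 2) := by ring
    rw [e, O.ord_neg]
    exact ⟨neg_ne_zero.2 this.1, this.2⟩
  -- `ord g = ord α₄`
  have hα₂ξ : O.Gt (α₂ * ξ) (O.ord α₄) := by
    right
    rw [ord_isU_mul hα₂U hξ0]
    exact hlt
  have h2 : ξ ^ 2 + α₂ * ξ + α₄ ≠ 0 ∧ O.ord (ξ ^ 2 + α₂ * ξ + α₄) = O.ord α₄ := by
    have := ord_add_eq_of_Gt hα₄0 (hξsq.add hα₂ξ)
    have e : ξ ^ 2 + α₂ * ξ + α₄ = α₄ + (ξ ^ 2 + α₂ * ξ) := by ring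
    rw [e]
    exact this
  have h2P := C.two_nsmul_ne hP hpP
  have hξ2 := C.xi_int h2P (C.nsmul_tors hpP 2)
  have hrhs : (ξ ^ 2 - α₄) ^ 2 ≠ 0 := pow_ne_zero 2 h1.1
  have hξ2ne : xi r (2 • P) ≠ 0 := by
    intro h
    rw [h, zero_mul] at hd
    exact hrhs hd.symm
  have hord := congrArg O.ord hd
  rw [O.ord_mul hξ2ne (mul_ne_zero (mul_ne_zero C.h4U.1 hξ0) h2.1),
    O.ord_mul (mul_ne_zero C.h4U.1 hξ0) h2.1, ord_isU_mul C.h4U hξ0, ord_sq h1.1, h1.2, h2.2]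
    at hord
  have := hξ2.le_ord hξ2ne
  linarith

/-- the order of `ξ(P)` for a `p`-torsion point reducing to the node -/
lemma node_ord (hα₂U : O.IsU α₂) (hα₄0 : α₄ ≠ 0) (hα₄pos : 0 < O.ord α₄)
    {P : W.Point} (hP : P ≠ 0) (hpP : p • P = 0) (hξpos : 0 < O.ord (xi r P)) :
    ∃ j : ℤ, (p : ℚ) * O.ord (xi r P) = 2 * j * O.ord α₄ := by
  obtain ⟨m, hm⟩ : ∃ m, p + 1 = 2 * m := by
    rcases C.hp.eq_two_or_odd with h | h
    · exact absurd h C.hp2
    · exact ⟨(p + 1) / 2, by omega⟩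
  have hp5 := C.hp5
  have hk : ∀ k, 1 ≤ k → k ≤ m → k • P ≠ 0 := fun k h1 h2 =>
    nsmul_ne_zero_of_lt C.hp hP hpP (by omega) (by omega)
  have key := node_torsion_seq O α₂ α₄ C.h2U hα₂U hα₄0 hα₄pos p m hm (by omega)
    (fun k => xi r (k • P))
    (fun k h1 h2 => C.xi_ne (hk k h1 h2) (C.nsmul_tors hpP k))
    (fun k h1 h2 => (C.xi_int (hk k h1 h2) (C.nsmul_tors hpP k)).le_ord
      (C.xi_ne (hk k h1 h2) (C.nsmul_tors hpP k)))
    (fun k h1 h2 => C.ord_xi_le hα₂U hα₄0 hα₄pos (hk k h1 h2) (C.nsmul_tors hpP k))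
    (by simpa using hξpos)
    (by
      have := leg_double C.leg C.hp C.hp2 hP hpP
      simpa using this)
    (by
      intro k hk2 hkm
      have := leg_prod C.leg C.two_ne C.hp hP hpP hk2 (by omega : k + 1 < p)
      simpa using this)
    (by
      intro k hk2 hkm
      have := leg_sum C.leg C.two_ne C.hp hP hpP hk2 (by omega : k + 1 < p)
      simpa using this)
    (by
      intro k hk2 hkm
      have := xc_nsmul_ne C.hp hP hpP hk2 (by omega : k + 1 < p)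
      simp only [xi, one_smul]
      intro h
      apply this
      linear_combination h)
    (by
      have := seq_end hm hpP
      simp only [xi]
      rw [this])
  simpa using key

end TorsCtx

end Fermat.Agent.S05
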