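import Fermat.Agent.S05.NodeOrd

/-!
# The abstract unramifiedness theorem
-/

set_option autoImplicit false
set_option linter.unusedSectionVars false

namespace Fermat.Agent.S05

open WeierstrassCurve WeierstrassCurve.Affine OrdVal

variable {K : Type*} [Field K] [DecidableEq K]

/-- An "inertia-like" automorphism acting on points. -/
structure InertialAct (W : WeierstrassCurve.Affine K) (O : OrdVal K) (φ : W.Point →+ W.Point)
    (σ : K →+* K) : Prop where
  ne_zero : ∀ P : W.Point, P ≠ 0 → φ P ≠ 0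
  xc_eq : ∀ P : W.Point, P ≠ 0 → xc (φ P) = σ (xc P)
  psi_eq : ∀ P : W.Point, P ≠ 0 → psi (φ P) = σ (psi P)
  sub_gt : ∀ x : K, O.Ge x 0 → O.Gt (σ x - x) 0

omit [DecidableEq K] in
lemma key_identity (x ψ x' ψ' r α₂ α₄ X S : K)
    (hs : S - 2 * r * (x' - x) ^ 2 =
      2 * (((x' - r) * (x - r) + α₄) * ((x' - r) + (x - r)) + 2 * α₂ * (x' - r) * (x - r)))
    (hsub : 2 * X * (x' - x) ^ 2 = S + ψ' * ψ)
    (hpsi : ψ ^ 2 = 4 * (x - r) * ((x - r) ^ 2 + α₂ * (x - r) + α₄)) :
    2 * (X - r) * (x' - x) ^ 2 =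
      2 * ψ ^ 2 + ((ψ' - ψ) * ψ + 2 * (x' - x) *
        (3 * (x - r) ^ 2 + 2 * α₂ * (x - r) + α₄ + (x - r) * (x' - x))) := by
  linear_combination hsub + hs - hpsi

namespace TorsCtx

variable {W : WeierstrassCurve.Affine K} {O : OrdVal K} {p : ℕ} {r α₂ α₄ : K}
  (C : TorsCtx W O p r α₂ α₄)
include C

/-- The core contradiction: if `σ x - x` and `σ ψ - ψ` have order larger than `ρ = ord ψ`
then `φ P - P` would have a non-integral `x`-coordinate. -/
lemma core {φ : W.Point →+ W.Point} {σ : K →+* K} (I : InertialAct W O φ σ)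
    {P : W.Point} (hP : P ≠ 0) (hpP : p • P = 0)
    (hδ : O.Gt (σ (xc P) - xc P) (O.ord (psi P)))
    (hε : O.Gt (σ (psi P) - psi P) (O.ord (psi P)))
    (hG : O.Ge (3 * xi r P ^ 2 + 2 * α₂ * xi r P + α₄ + xi r P * (σ (xc P) - xc P))
      (O.ord (psi P))) :
    φ P = P := by
  by_contra hne
  have hQ : φ P - P ≠ 0 := sub_ne_zero.2 hne
  have hφP : φ P ≠ 0 := I.ne_zero P hP
  have hpφ : p • φ P = 0 := by rw [← map_nsmul, hpP, map_zero]
  have hpQ : p • (φ P - P) = 0 := by rw [smul_sub, hpφ, hpP, sub_zero]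
  have hψ := C.psi_ne hP hpP
  have hψint := C.psi_int hP hpP
  set ρ := O.ord (psi P) with hρ
  have hρ0 : 0 ≤ ρ := hψint.le_ord hψ
  by_cases hx : xc (φ P) = xc P
  · -- `φ P = ± P`
    rcases (xc_eq_iff _ _ hφP hP).1 hx with h | h
    · exact hne h
    · have h1 : σ (psi P) = -psi P := by rw [← I.psi_eq P hP, h, psi_neg]
      rw [h1] at hε
      have e : -psi P - psi P = (-2 : K) * psi P := by ring
      rw [e] at hε
      have h2 : (-2 : K) * psi P ≠ 0 := mul_ne_zero (neg_ne_zero.2 C.two_ne) hψ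
      have := hε.lt_ord h2
      rw [ord_isU_mul C.h2U.neg hψ] at this
      exact lt_irrefl _ this
  · obtain ⟨-, -, -, hsub⟩ := xc_add_sub (φ P) P hφP hP hx
    have hs := C.leg.sNum_eq (xc (φ P)) (xc P)
    have hpsi := leg_psi_sq C.leg hP
    rw [I.xc_eq P hP] at hsub hs hx
    rw [I.psi_eq P hP] at hsub
    have key0 := key_identity (xc P) (psi P) (σ (xc P)) (σ (psi P)) r α₂ α₄ (xc (φ P - P))
        (sNum W (σ (xc P)) (xc P)) hs hsub hpsi
    set δ := σ (xc P) - xc P with hδdef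
    set ε := σ (psi P) - psi P with hεdef
    set ξ := xi r P with hξdef
    have hδ0 : δ ≠ 0 := sub_ne_zero.2 hx
    -- the key identity
    have key : 2 * xi r (φ P - P) * δ ^ 2 =
        2 * psi P ^ 2 + (ε * psi P + 2 * δ * (3 * ξ ^ 2 + 2 * α₂ * ξ + α₄ + ξ * δ)) := key0
    -- orders
    have h2ψ : (2 : K) * psi P ^ 2 ≠ 0 := mul_ne_zero C.two_ne (pow_ne_zero 2 hψ)
    have hord2ψ : O.ord ((2 : K) * psi P ^ 2) = 2 * ρ := by
      rw [ord_isU_mul C.h2U (pow_ne_zero 2 hψ), ord_sq hψ]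
    have hψge : O.Ge (psi P) ρ := Or.inr le_rfl
    have hrest : O.Gt (ε * psi P + 2 * δ * (3 * ξ ^ 2 + 2 * α₂ * ξ + α₄ + ξ * δ))
        (O.ord ((2 : K) * psi P ^ 2)) := by
      rw [hord2ψ]
      have t1 : O.Gt (ε * psi P) (2 * ρ) := by
        have := hε.mul_ge hψge
        refine this.mono (by linarith)
      have t2 : O.Gt (2 * δ * (3 * ξ ^ 2 + 2 * α₂ * ξ + α₄ + ξ * δ)) (2 * ρ) := by
        have h2δ : O.Gt (2 * δ) ρ := by
          have := C.h2U.ge.mul_gt hδ
          simpa using this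
        have := h2δ.mul_ge hG
        refine this.mono (by linarith)
      exact t1.add t2
    obtain ⟨hne0, hordR⟩ := ord_add_eq_of_Gt h2ψ hrest
    rw [← key] at hne0 hordR
    have hξQ0 : xi r (φ P - P) ≠ 0 := by
      intro h
      rw [h] at hne0
      simp at hne0
    have hξQ := (C.xi_int hQ hpQ).le_ord hξQ0
    rw [O.ord_mul (mul_ne_zero C.two_ne hξQ0) (pow_ne_zero 2 hδ0),
      ord_isU_mul C.h2U hξQ0, ord_sq hδ0, hord2ψ] at hordR
    have := hδ.lt_ord hδ0
    linarith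


/-- if `ord ψ > 0` then `ξ² - α₄` and `ξ g(ξ)` have positive order -/
lemma sq_sub_gt {P : W.Point} (hP : P ≠ 0) (hpP : p • P = 0) (hψpos : 0 < O.ord (psi P)) :
    O.Gt (xi r P ^ 2 - α₄) 0 ∧
      O.Gt (xi r P * (xi r P ^ 2 + α₂ * xi r P + α₄)) 0 := by
  have hψ := C.psi_ne hP hpP
  have hd := leg_double C.leg C.hp C.hp2 hP hpP
  have hpsi := leg_psi_sq C.leg hP
  have h2P := C.two_nsmul_ne hP hpP
  have hξ2 := C.xi_int h2P (C.nsmul_tors hpP 2)
  have hψsq : O.Gt (psi P ^ 2) 0 := by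
    right
    rw [ord_sq hψ]; linarith
  constructor
  · apply Gt.of_sq_zero
    rw [← hd, mul_assoc 4, ← mul_assoc 4 (xi r P), ← hpsi]
    exact hξ2.mul_gt0 hψsq
  · have e : xi r P * (xi r P ^ 2 + α₂ * xi r P + α₄) = psi P ^ 2 * (4 : K)⁻¹ := by
      rw [hpsi]
      have := C.h4U.1
      field_simp
    rw [e]
    exact hψsq.mul_isU C.h4U.inv

/-- Elements of the same order as a `σ`-fixed element are moved by less than their order. -/
lemma gt_of_fixed_scale {φ : W.Point →+ W.Point} {σ : K →+* K} (I : InertialAct W O φ σ)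
    {y τ : K} (hτ0 : τ ≠ 0) (hστ : σ τ = τ) (hy0 : y ≠ 0) (hy : O.ord y = O.ord τ) :
    O.Gt (σ y - y) (O.ord y) := by
  have hw0 : y / τ ≠ 0 := div_ne_zero hy0 hτ0
  have hw : O.Ge (y / τ) 0 := by
    right
    rw [O.ord_div hy0 hτ0, hy, sub_self]
  have h1 := I.sub_gt _ hw
  have e : σ y - y = (σ (y / τ) - y / τ) * τ := by
    rw [map_div₀, hστ]
    field_simp
  rw [e]
  have := h1.mul_ge (Or.inr le_rfl : O.Ge τ (O.ord τ))
  rw [zero_add, ← hy] at this
  exact this

/-- **Unramifiedness, good reduction type.** -/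
theorem fix_of_good {φ : W.Point →+ W.Point} {σ : K →+* K} (I : InertialAct W O φ σ)
    (hα₄U : O.IsU α₄) (hdisc : O.IsU (α₂ ^ 2 - 4 * α₄))
    {P : W.Point} (hpP : p • P = 0) : φ P = P := by
  by_cases hP : P = 0
  · rw [hP, map_zero]
  have hψ := C.psi_ne hP hpP
  have hψint := C.psi_int hP hpP
  have hξint := C.xi_int hP hpP
  have hδ0 := I.sub_gt _ (C.xc_int hP hpP)
  have hε0 := I.sub_gt _ hψint
  have hmul : ∀ {x y : K}, O.Ge x 0 → O.Ge y 0 → O.Ge (x * y) 0 := fun hx hy => by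
    simpa using hx.mul hy
  have h2 : O.Ge (2 : K) 0 := C.h2U.ge
  have h3 : O.Ge (3 : K) 0 := by simpa using C.hnat 3
  have h4 : O.Ge (4 : K) 0 := C.h4U.ge
  have hξsq : O.Ge (xi r P ^ 2) 0 := by simpa using hξint.pow 2
  by_cases hψ0 : O.ord (psi P) = 0
  · apply C.core I hP hpP
    · rw [hψ0]; exact hδ0
    · rw [hψ0]; exact hε0
    · rw [hψ0]
      exact (((hmul h3 hξsq).add (hmul (hmul h2 C.hα₂) hξint)).add C.hα₄).add
        (hmul hξint hδ0.ge)
  · exfalso
    have hψpos : 0 < O.ord (psi P) := lt_of_le_of_ne (hψint.le_ord hψ) (Ne.symm hψ0)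
    obtain ⟨h1, h2'⟩ := C.sq_sub_gt hP hpP hψpos
    have hξnot : ¬ O.Gt (xi r P) 0 := by
      intro hξ
      have hξ2 : O.Gt (xi r P ^ 2) 0 := by
        have := hξ.mul_ge0 hξint
        simpa [pow_two] using this
      have : O.Gt α₄ 0 := by
        have := hξ2.sub h1
        simpa using this
      exact hα₄U.not_gt this
    have hξU : O.IsU (xi r P) := isU_of_ge_of_not_gt hξint hξnot
    rcases Gt.of_mul hξint (C.g_int hP hpP) h2' with hξ | hg
    · exact hξnot hξ
    · have h5 : O.Gt (α₂ * xi r P + 2 * α₄) 0 := by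
        have := hg.sub h1
        have e : xi r P ^ 2 + α₂ * xi r P + α₄ - (xi r P ^ 2 - α₄) = α₂ * xi r P + 2 * α₄ := by
          ring
        rwa [e] at this
      have h6 : O.Gt ((2 * xi r P + α₂) * xi r P) 0 := by
        have := (h2.mul_gt0 h1).add h5
        have e : 2 * (xi r P ^ 2 - α₄) + (α₂ * xi r P + 2 * α₄) = (2 * xi r P + α₂) * xi r P := by
          ring
        rw [e] at this
        simpa using this
      have h7 : O.Gt (2 * xi r P + α₂) 0 := by
        rcases Gt.of_mul ((hmul h2 hξint).add C.hα₂) hξint h6 with h | h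
        · exact h
        · exact absurd h hξnot
      have h8 : O.Gt (α₂ ^ 2 - 4 * α₄) 0 := by
        have t1 := h7.mul_ge0 (C.hα₂.sub (hmul h2 hξint))
        have t2 := h4.mul_gt0 h1
        have := t1.add t2
        have e : (2 * xi r P + α₂) * (α₂ - 2 * xi r P) + 4 * (xi r P ^ 2 - α₄) =
            α₂ ^ 2 - 4 * α₄ := by ring
        rw [e] at this
        simpa using this
      exact hdisc.not_gt h8


/-- **Unramifiedness, multiplicative reduction type** (with `ord α₄ ∈ p · ord t`, `t` fixed). -/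
theorem fix_of_mult {φ : W.Point →+ W.Point} {σ : K →+* K} (I : InertialAct W O φ σ)
    (hσr : σ r = r)
    (hα₂U : O.IsU α₂) (hα₄0 : α₄ ≠ 0) (hα₄pos : 0 < O.ord α₄)
    (t : K) (ht0 : t ≠ 0) (hσt : σ t = t) (hαt : O.ord α₄ = p * O.ord t)
    {P : W.Point} (hpP : p • P = 0) : φ P = P := by
  by_cases hP : P = 0
  · rw [hP, map_zero]
  have hψ := C.psi_ne hP hpP
  have hψint := C.psi_int hP hpP
  have hξint := C.xi_int hP hpP
  have hξ0 := C.xi_ne hP hpP
  have hδ0 := I.sub_gt _ (C.xc_int hP hpP)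
  have hε0 := I.sub_gt _ hψint
  have hmul : ∀ {x y : K}, O.Ge x 0 → O.Ge y 0 → O.Ge (x * y) 0 := fun hx hy => hx.mul0 hy
  have h2 : O.Ge (2 : K) 0 := C.h2U.ge
  have h3 : O.Ge (3 : K) 0 := by simpa using C.hnat 3
  have hξsq : O.Ge (xi r P ^ 2) 0 := hξint.pow0 2
  by_cases hψ0 : O.ord (psi P) = 0
  · apply C.core I hP hpP
    · rw [hψ0]; exact hδ0
    · rw [hψ0]; exact hε0
    · rw [hψ0]
      exact (((hmul h3 hξsq).add (hmul (hmul h2 C.hα₂) hξint)).add C.hα₄).add
        (hmul hξint hδ0.ge)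
  · have hψpos : 0 < O.ord (psi P) := lt_of_le_of_ne (hψint.le_ord hψ) (Ne.symm hψ0)
    obtain ⟨h1, -⟩ := C.sq_sub_gt hP hpP hψpos
    -- `ord ξ > 0`
    have hξpos : 0 < O.ord (xi r P) := by
      have hα₄gt : O.Gt α₄ 0 := Or.inr hα₄pos
      have : O.Gt (xi r P ^ 2) 0 := by
        have := h1.add hα₄gt
        simpa using this
      exact (Gt.of_sq_zero this).lt_ord hξ0
    obtain ⟨j, hj⟩ := C.node_ord hα₂U hα₄0 hα₄pos hP hpP hξpos
    have hle := C.ord_xi_le hα₂U hα₄0 hα₄pos hP hpP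
    have hp0 : (p : ℚ) ≠ 0 := by exact_mod_cast C.hp.ne_zero
    -- `ord ξ = 2 j ord t`
    have hξt : O.ord (xi r P) = 2 * j * O.ord t := by
      rw [hαt] at hj
      have : (p : ℚ) * O.ord (xi r P) = (p : ℚ) * (2 * j * O.ord t) := by rw [hj]; ring
      exact mul_left_cancel₀ hp0 this
    -- `ord ξ < ord α₄`
    have hlt : O.ord (xi r P) < O.ord α₄ := by
      refine lt_of_le_of_ne hle ?_
      intro heq
      rw [heq] at hj
      have h' : (p : ℚ) = 2 * j := by
        have : (p : ℚ) * O.ord α₄ = (2 * j) * O.ord α₄ := hj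
        exact mul_right_cancel₀ hα₄pos.ne' this
      have h'' : (p : ℤ) = 2 * j := by exact_mod_cast h'
      have hpodd : ¬ (2 : ℤ) ∣ (p : ℤ) := by
        intro hd
        have : (2 : ℕ) ∣ p := by exact_mod_cast hd
        have := (Nat.prime_dvd_prime_iff_eq Nat.prime_two C.hp).1 this
        exact C.hp2 this.symm
      exact hpodd ⟨j, h''⟩
    -- `ord g = ord ξ`
    have hg : O.ord (xi r P ^ 2 + α₂ * xi r P + α₄) = O.ord (xi r P) := by
      have hmain : α₂ * xi r P ≠ 0 := mul_ne_zero hα₂U.1 hξ0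
      have hmo : O.ord (α₂ * xi r P) = O.ord (xi r P) := ord_isU_mul hα₂U hξ0
      have hrest : O.Gt (xi r P ^ 2 + α₄) (O.ord (α₂ * xi r P)) := by
        rw [hmo]
        refine Gt.add (Or.inr ?_) (Or.inr hlt)
        rw [ord_sq hξ0]; linarith
      have := (ord_add_eq_of_Gt hmain hrest).2
      rw [hmo] at this
      rw [← this]
      congr 1; ring
    have hψξ : O.ord (psi P) = O.ord (xi r P) := by
      have := C.ord_psi hP hpP
      rw [hg] at this
      linarith
    -- the fixed scale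
    have hτ0 : t ^ (2 * j) ≠ 0 := zpow_ne_zero _ ht0
    have hστ : σ (t ^ (2 * j)) = t ^ (2 * j) := by rw [map_zpow₀, hσt]
    have hτord : O.ord (t ^ (2 * j)) = O.ord (xi r P) := by
      rw [O.ord_zpow ht0, hξt]; push_cast; ring
    have hσξ : σ (xi r P) - xi r P = σ (xc P) - xc P := by
      simp only [xi, map_sub, hσr]; ring
    apply C.core I hP hpP
    · rw [hψξ, ← hσξ]
      exact C.gt_of_fixed_scale I hτ0 hστ hξ0 hτord.symm
    · exact C.gt_of_fixed_scale I hτ0 hστ hψ (by rw [hψξ, hτord])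
    · rw [hψξ]
      have hξge : O.Ge (xi r P) (O.ord (xi r P)) := Or.inr le_rfl
      have a1 : O.Ge (3 * xi r P ^ 2) (O.ord (xi r P)) := by
        have := (h3.mul0 hξint).mul hξge
        rw [zero_add] at this
        have e : 3 * xi r P * xi r P = 3 * xi r P ^ 2 := by ring
        rwa [e] at this
      have a2 : O.Ge (2 * α₂ * xi r P) (O.ord (xi r P)) := by
        have := (h2.mul0 C.hα₂).mul hξge
        rwa [zero_add] at this
      have a3 : O.Ge α₄ (O.ord (xi r P)) := Or.inr hle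
      have a4 : O.Ge (xi r P * (σ (xc P) - xc P)) (O.ord (xi r P)) := by
        have := hξge.mul hδ0.ge
        rwa [add_zero] at this
      exact ((a1.add a2).add a3).add a4

end TorsCtx

end Fermat.Agent.S05
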